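import Fermat.Agent.SexticCount.Local

/-!
# Counting maximal forms of bounded weight whose triple primes are small

The classes are counted with the weight `cond ^ (2 / 3)`. With the local behaviour fixed at
finitely many primes the count is a sum of Davenport's counts; the large primes are removed by the
uniformity estimates.
-/

set_option autoImplicit false

noncomputable section

open FA.Thue FA.DeloneFaddeev FA.CubicFormCount FA.CubicFields FA.ThreeTorsion Filter
open scoped Classical Topology Real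

namespace FA.SexticCount

/-- The classes with `0 < ± disc ≤ Y wt`. -/
def classesW (ε : Bool) (Q : Set CubicForm) (wt : CubicForm → ℝ) (Y : ℝ) :
    Set (Set CubicForm) :=
  {c | ∃ f ∈ Q, f.Anisotropic ∧ 0 < sgn ε * f.disc ∧ sgn ε * f.disc ≤ Y * wt f ∧ c = classSet f}

/-- The weight at the primes of `S`. -/
def weightOn (S : Finset ℕ) (f : CubicForm) : ℝ := ∏ p ∈ S, (condAt p f : ℝ) ^ (2 / 3 : ℝ)

/-- The weight. -/
def wgt (f : CubicForm) : ℝ := (cond f : ℝ) ^ (2 / 3 : ℝ)

/-- A bound for the weight at the primes of `S`. -/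
def weightBound (S : Finset ℕ) : ℝ := ∏ p ∈ S, (p : ℝ) ^ 2

/-- Maximal at the primes of `S` with the factors of the conductor in `V`. -/
def levelSet (S : Finset ℕ) (V : ℕ → Finset ℕ) : Set CubicForm :=
  {f | ∀ p ∈ S, f ∉ badAt p ∧ condAt p f ∈ V p}

/-- The weighted density of some of the values. -/
def valWeight (p : ℕ) (W : Finset ℕ) : ℝ :=
  ∑ w ∈ W, density (p ^ 2) (locSet p w) * (w : ℝ) ^ (2 / 3 : ℝ)

theorem weightOn_twisted (S : Finset ℕ) {f g : CubicForm} (h : Twisted f g) :
    weightOn S g = weightOn S f :=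
  Finset.prod_congr rfl fun p _ => by rw [condAt_twisted p h]

theorem weightOn_pos {S : Finset ℕ} (hS : ∀ p ∈ S, p.Prime) (f : CubicForm) : 0 < weightOn S f :=
  Finset.prod_pos fun p hp =>
    Real.rpow_pos_of_pos (by exact_mod_cast condAt_pos (hS p hp) f) _

theorem weightOn_le {S : Finset ℕ} (hS : ∀ p ∈ S, p.Prime) (f : CubicForm) :
    weightOn S f ≤ weightBound S := by
  refine Finset.prod_le_prod (fun p _ => by positivity) fun p hp => ?_
  refine (Real.rpow_le_self_of_one_le (by exact_mod_cast condAt_pos (hS p hp) f)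
    (by norm_num)).trans ?_
  exact_mod_cast Nat.le_of_dvd (pow_pos (hS p hp).pos 2) (condAt_dvd (hS p hp) f)

theorem classesW_subset (ε : Bool) (Q : Set CubicForm) {wt : CubicForm → ℝ} {B Y : ℝ}
    (hY : 0 ≤ Y) (hB : ∀ f ∈ Q, wt f ≤ B) : classesW ε Q wt Y ⊆ classes ε Q (Y * B) := by
  rintro c ⟨f, hf, ha, h0, h1, rfl⟩
  exact ⟨f, hf, ha, h0, h1.trans (mul_le_mul_of_nonneg_left (hB f hf) hY), rfl⟩

theorem invariant_levelSet (S : Finset ℕ) (V : ℕ → Finset ℕ) :
    ∀ f g, Twisted f g → f ∈ levelSet S V → g ∈ levelSet S V := fun f g h hf p hp =>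
  ⟨fun hb => (hf p hp).1 (invariant_badAt p g f (twisted_symm h) hb),
    by rw [condAt_twisted p h]; exact (hf p hp).2⟩

/-- **Weighted counts with local conditions.** -/
theorem tendsto_level (ε : Bool) (S : Finset ℕ) (hS : ∀ p ∈ S, p.Prime) (V : ℕ → Finset ℕ)
    (hV : ∀ p ∈ S, V p ⊆ condVals p) :
    ∀ {m : ℕ}, 0 < m → (∀ p ∈ S, (p ^ 2).Coprime m) → ∀ {Q : Set CubicForm},
      (∀ f g, Twisted f g → f ∈ Q → g ∈ Q) → PeriodicSet m Q → ∀ {c : ℝ}, 0 < c →
      Tendsto (fun Y : ℝ =>
          ((classesW ε (levelSet S V ∩ Q) (fun f => c * weightOn S f) Y).ncard : ℝ) / Y) atTop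
        (𝓝 (c * density m Q * (∏ p ∈ S, valWeight p (V p)) * mainConst ε)) := by
  induction S using Finset.induction_on with
  | empty =>
    intro m hm _ Q hinv hQ c hc
    have e : ∀ Y : ℝ, classesW ε (levelSet ∅ V ∩ Q) (fun f => c * weightOn ∅ f) Y =
        classes ε Q (Y * c) := fun Y => by
      ext x
      simp [classesW, classes, levelSet, weightOn]
    have h := ((tendsto_classes ε hm hinv hQ).comp
      (tendsto_id.atTop_mul_const hc : Tendsto (fun Y : ℝ => Y * c) atTop atTop)).const_mul c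
    rw [Finset.prod_empty, mul_one, mul_assoc]
    refine h.congr' ?_
    filter_upwards [eventually_gt_atTop (0 : ℝ)] with Y hY
    simp only [Function.comp_apply, e]
    field_simp
  | insert p S hpS ih =>
    intro m hm hcop Q hinv hQ c hc
    have hS' : ∀ q ∈ S, q.Prime := fun q hq => hS q (Finset.mem_insert_of_mem hq)
    have hV' : ∀ q ∈ S, V q ⊆ condVals q := fun q hq => hV q (Finset.mem_insert_of_mem hq)
    have hp := hS p (Finset.mem_insert_self p S)
    set piece := fun (w : ℕ) (Y : ℝ) => classesW ε (levelSet S V ∩ (locSet p w ∩ Q))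
      (fun f => c * (w : ℝ) ^ (2 / 3 : ℝ) * weightOn S f) Y
    have hone : ∀ w ∈ V p, Tendsto (fun Y : ℝ => ((piece w Y).ncard : ℝ) / Y) atTop
        (𝓝 (c * (w : ℝ) ^ (2 / 3 : ℝ) * (density (p ^ 2) (locSet p w) * density m Q) *
          (∏ q ∈ S, valWeight q (V q)) * mainConst ε)) := by
      intro w hw
      have hwv := hV p (Finset.mem_insert_self p S) hw
      have hw0 : 0 < w := by
        rw [condVals] at hwv
        split_ifs at hwv <;> simp at hwv <;> have := hp.pos <;> omega
      have hcp := hcop p (Finset.mem_insert_self p S)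
      have hper := periodic_inter (periodic_locSet hp hwv) hQ
      have hd : density (p ^ 2 * m) (locSet p w ∩ Q) =
          density (p ^ 2) (locSet p w) * density m Q := by
        rw [density, density, density,
          card_residues_inter (pow_pos hp.pos 2) hm hcp (periodic_locSet hp hwv) hQ]
        push_cast
        ring
      rw [← hd]
      have hinv' : ∀ f g, Twisted f g → f ∈ locSet p w ∩ Q → g ∈ locSet p w ∩ Q :=
        fun f g h hf => ⟨invariant_locSet p w f g h hf.1, hinv f g h hf.2⟩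
      refine ih hS' hV' (Nat.mul_pos (pow_pos hp.pos 2) hm) (fun q hq => ?_) hinv' hper ?_
      · exact Nat.Coprime.mul_right (Nat.Coprime.pow 2 2
          ((Nat.coprime_primes (hS' q hq) hp).mpr fun e => hpS (e ▸ hq)))
          (hcop q (Finset.mem_insert_of_mem hq))
      · exact mul_pos hc (Real.rpow_pos_of_pos (Nat.cast_pos.mpr hw0) _)
    have hwt : ∀ w f, condAt p f = w →
        c * weightOn (insert p S) f = c * (w : ℝ) ^ (2 / 3 : ℝ) * weightOn S f := fun w f e => by
      rw [weightOn, Finset.prod_insert hpS, e, weightOn]; ring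
    have hsplit : ∀ Y : ℝ, classesW ε (levelSet (insert p S) V ∩ Q)
        (fun f => c * weightOn (insert p S) f) Y = ⋃ w ∈ V p, piece w Y := by
      intro Y
      ext x
      simp only [Set.mem_iUnion, piece]
      constructor
      · rintro ⟨f, ⟨hl, hf⟩, ha, h0, h1, rfl⟩
        obtain ⟨hb, hv⟩ := hl p (Finset.mem_insert_self p S)
        refine ⟨condAt p f, hv, f, ⟨fun q hq => hl q (Finset.mem_insert_of_mem hq), ⟨hb, rfl⟩, hf⟩,
          ha, h0, ?_, rfl⟩
        show _ ≤ Y * (c * (condAt p f : ℝ) ^ (2 / 3 : ℝ) * weightOn S f)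
        rw [← hwt _ f rfl]
        exact h1
      · rintro ⟨w, hw, f, ⟨hl, ⟨hb, hcd⟩, hf⟩, ha, h0, h1, rfl⟩
        refine ⟨f, ⟨fun q hq => ?_, hf⟩, ha, h0, ?_, rfl⟩
        · rcases Finset.mem_insert.mp hq with rfl | hq
          · exact ⟨hb, hcd ▸ hw⟩
          · exact hl q hq
        · show _ ≤ Y * (c * weightOn (insert p S) f)
          rw [hwt w f hcd]
          exact h1
    have hfin : ∀ Y : ℝ, 0 ≤ Y → ∀ w, (piece w Y).Finite := fun Y hY w =>
      (classes_finite ε _ _).subset (classesW_subset ε _ hY fun f _ =>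
        mul_le_mul_of_nonneg_left (weightOn_le hS' f) (by positivity))
    have h := tendsto_finsetSum (V p) hone
    have hlim : ∑ w ∈ V p, c * (w : ℝ) ^ (2 / 3 : ℝ) *
        (density (p ^ 2) (locSet p w) * density m Q) *
          (∏ q ∈ S, valWeight q (V q)) * mainConst ε =
        c * density m Q * (∏ q ∈ insert p S, valWeight q (V q)) * mainConst ε := by
      rw [Finset.prod_insert hpS, valWeight, Finset.sum_mul, Finset.mul_sum, Finset.sum_mul]
      exact Finset.sum_congr rfl fun w _ => by ring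
    rw [hlim] at h
    refine h.congr' ?_
    filter_upwards [eventually_ge_atTop (0 : ℝ)] with Y hY
    have hU : (⋃ w ∈ V p, piece w Y).ncard = ∑ w ∈ V p, (piece w Y).ncard :=
      (Set.Finite.ncard_biUnion (V p).finite_toSet (fun w _ => hfin Y hY w)
        fun w _ w' _ hne => ?_).trans (finsum_mem_coe_finset _ _)
    · rw [hsplit Y, hU, Nat.cast_sum, Finset.sum_div]
    rw [Function.onFun, Set.disjoint_left]
    rintro x ⟨f, ⟨-, ⟨-, hf⟩, -⟩, -, -, -, rfl⟩ ⟨g, ⟨-, ⟨-, hg⟩, -⟩, -, -, -, e⟩
    exact hne (by rw [← hf, ← hg, condAt_twisted p (twisted_of_classSet e)])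

/-- The maximal forms with no triple prime from `Z` on. -/
def smallForms (Z : ℕ) : Set CubicForm :=
  {f | f ∈ maxForms ∧ ∀ p : ℕ, p.Prime → Z ≤ p → f ∉ tripleAt p}

/-- All values below `Z`, the value `1` from `Z` on. -/
def valsUpTo (Z p : ℕ) : Finset ℕ := if p < Z then condVals p else {1}

/-- The gain of the triple roots below `Z`. -/
def tripleGain (Z : ℕ) : ℝ := ∏ p ∈ Z.primesBelow, locWeight p / sharpFactor p

/-- The density with triple roots below `Z` only. -/
def levelDensity (Z : ℕ) : ℝ := tripleGain Z * ((π ^ 2 / 6)⁻¹) ^ 2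

theorem disc_ne_zero {ε : Bool} {f : CubicForm} (h : 0 < sgn ε * (f.disc : ℝ)) : f.disc ≠ 0 :=
  fun h0 => by simp [h0] at h

theorem weightOn_eq {f : CubicForm} (hd : f.disc ≠ 0) {S : Finset ℕ}
    (h : ∀ p : ℕ, p.Prime → f ∈ tripleAt p → p ∈ S) (hS : ∀ p ∈ S, p.Prime) :
    weightOn S f = wgt f := by
  rw [weightOn, Real.finsetProd_rpow _ _ (fun _ _ => Nat.cast_nonneg _), ← Nat.cast_prod,
    prod_condAt_eq hd h hS, wgt]

theorem sharpFactor_pos {p : ℕ} (hp : p.Prime) : 0 < sharpFactor p := by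
  have : (1 : ℝ) < (p : ℝ) ^ 2 :=
    one_lt_pow₀ (by exact_mod_cast hp.one_lt) two_ne_zero
  have := inv_lt_one_of_one_lt₀ this
  rw [sharpFactor]
  positivity

theorem valWeight_one {p : ℕ} (hp : p.Prime) : valWeight p {1} = sharpFactor p := by
  rw [valWeight, Finset.sum_singleton, Nat.cast_one, Real.one_rpow, mul_one, locSet_one hp,
    density_compl_sharpBad hp]

theorem tendsto_sharpProduct :
    Tendsto (fun W : ℕ => ∏ p ∈ W.primesBelow, sharpFactor p) atTop
      (𝓝 (((π ^ 2 / 6)⁻¹) ^ 2)) := by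
  have h2 : (riemannZeta ((2 : ℕ) : ℂ)).re = π ^ 2 / 6 := by
    rw [Nat.cast_ofNat, riemannZeta_two]; norm_cast
  have h := (tendsto_eulerFactor (le_refl 2)).pow 2
  rw [h2] at h
  simpa [sharpFactor, Finset.prod_pow] using h

theorem tendsto_levelProduct (Z : ℕ) :
    Tendsto (fun W : ℕ => ∏ p ∈ W.primesBelow, valWeight p (valsUpTo Z p)) atTop
      (𝓝 (levelDensity Z)) := by
  refine (tendsto_sharpProduct.const_mul (tripleGain Z)).congr' ?_
  filter_upwards [eventually_ge_atTop Z] with W hW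
  have hsub : Z.primesBelow ⊆ W.primesBelow := fun p hp => by
    obtain ⟨h1, h2⟩ := Nat.mem_primesBelow.mp hp
    exact Nat.mem_primesBelow.mpr ⟨by omega, h2⟩
  rw [tripleGain, ← Finset.prod_sdiff hsub, ← Finset.prod_sdiff hsub]
  have h1 : ∀ p ∈ W.primesBelow \ Z.primesBelow,
      valWeight p (valsUpTo Z p) = sharpFactor p := by
    intro p hp
    obtain ⟨h1, h2⟩ := Finset.mem_sdiff.mp hp
    obtain ⟨-, hpp⟩ := Nat.mem_primesBelow.mp h1
    rw [valsUpTo, if_neg fun h => h2 (Nat.mem_primesBelow.mpr ⟨h, hpp⟩), valWeight_one hpp]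
  have h2 : ∀ p ∈ Z.primesBelow, valWeight p (valsUpTo Z p) = locWeight p := fun p hp => by
    rw [valsUpTo, if_pos (Nat.mem_primesBelow.mp hp).1]; rfl
  rw [Finset.prod_congr rfl h1, Finset.prod_congr rfl h2, Finset.prod_div_distrib]
  have hne : ∏ p ∈ Z.primesBelow, sharpFactor p ≠ 0 :=
    (Finset.prod_pos fun p hp => sharpFactor_pos (Nat.prime_of_mem_primesBelow hp)).ne'
  field_simp

theorem small_subset_level (ε : Bool) {Z W : ℕ} (hZW : Z ≤ W) (Y : ℝ) :
    classesW ε (smallForms Z) wgt Y ⊆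
      classesW ε (levelSet W.primesBelow (valsUpTo Z)) (weightOn W.primesBelow) Y := by
  rintro x ⟨f, ⟨hm, ht⟩, ha, h0, h1, rfl⟩
  refine ⟨f, fun p hp => ?_, ha, h0, ?_, rfl⟩
  · obtain ⟨-, hpp⟩ := Nat.mem_primesBelow.mp hp
    refine ⟨hm p hpp, ?_⟩
    rw [valsUpTo]
    split_ifs with h
    · exact condAt_mem_vals p f
    · rw [condAt, if_neg (ht p hpp (by omega)), Finset.mem_singleton]
  · rw [weightOn_eq (disc_ne_zero h0) (fun p hp htp => Nat.mem_primesBelow.mpr
      ⟨lt_of_lt_of_le (not_le.mp fun h => ht p hp h htp) hZW, hp⟩)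
      fun p hp => Nat.prime_of_mem_primesBelow hp]
    exact h1

theorem level_subset_small (ε : Bool) {Z W : ℕ} (hZW : Z ≤ W) {Y : ℝ} (hY : 0 ≤ Y) :
    classesW ε (levelSet W.primesBelow (valsUpTo Z)) (weightOn W.primesBelow) Y ⊆
      classesW ε (smallForms Z) wgt Y ∪
        ((classes ε (maxAtSet W.primesBelow) (Y * weightBound Z.primesBelow) \
            classes ε maxForms (Y * weightBound Z.primesBelow)) ∪
          classes ε (tripTail W) (Y * weightBound Z.primesBelow)) := by
  rintro x ⟨f, hf, ha, h0, h1, rfl⟩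
  have hsub : Z.primesBelow ⊆ W.primesBelow := fun p hp => by
    obtain ⟨h1, h2⟩ := Nat.mem_primesBelow.mp hp
    exact Nat.mem_primesBelow.mpr ⟨by omega, h2⟩
  have hone : ∀ p ∈ W.primesBelow, p ∉ Z.primesBelow → condAt p f = 1 := fun p hp hpZ => by
    obtain ⟨-, hpp⟩ := Nat.mem_primesBelow.mp hp
    have h := (hf p hp).2
    rw [valsUpTo, if_neg fun h => hpZ (Nat.mem_primesBelow.mpr ⟨h, hpp⟩),
      Finset.mem_singleton] at h
    exact h
  have hbound : sgn ε * (f.disc : ℝ) ≤ Y * weightBound Z.primesBelow := by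
    refine h1.trans (mul_le_mul_of_nonneg_left ?_ hY)
    rw [weightOn, ← Finset.prod_subset hsub fun p hp hpZ => by
      rw [hone p hp hpZ, Nat.cast_one, Real.one_rpow]]
    exact weightOn_le (fun p hp => Nat.prime_of_mem_primesBelow hp) f
  by_cases hm : f ∈ maxForms
  · by_cases ht : ∀ p : ℕ, p.Prime → Z ≤ p → f ∉ tripleAt p
    · refine Or.inl ⟨f, ⟨hm, ht⟩, ha, h0, ?_, rfl⟩
      rwa [← weightOn_eq (disc_ne_zero h0) (S := W.primesBelow) (fun p hp htp =>
        Nat.mem_primesBelow.mpr ⟨lt_of_lt_of_le (not_le.mp fun h => ht p hp h htp) hZW, hp⟩)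
        fun p hp => Nat.prime_of_mem_primesBelow hp]
    · push Not at ht
      obtain ⟨p, hp, hZp, htp⟩ := ht
      refine Or.inr (Or.inr ⟨f, ⟨p, hp, ?_, htp, prime_dvd_disc htp⟩, ha, h0, hbound, rfl⟩)
      by_contra hlt
      have h := hone p (Nat.mem_primesBelow.mpr ⟨by omega, hp⟩)
        fun h => by have := (Nat.mem_primesBelow.mp h).1; omega
      rw [condAt, if_pos htp] at h
      have := hp.one_lt
      split_ifs at h
      all_goals omega
  · refine Or.inr (Or.inl ⟨⟨f, fun p hp => (hf p hp).1, ha, h0, hbound, rfl⟩, ?_⟩)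
    rintro ⟨g, hg, -, -, -, e⟩
    exact hm fun p hp hb => hg p hp (invariant_badAt p f g (twisted_of_classSet e) hb)

/-- **The count with small triple primes.** -/
theorem tendsto_small (ε : Bool) (Z : ℕ) :
    Tendsto (fun Y : ℝ => ((classesW ε (smallForms Z) wgt Y).ncard : ℝ) / Y) atTop
      (𝓝 (levelDensity Z * mainConst ε)) := by
  set M := weightBound Z.primesBelow
  have hM : 0 < M := Finset.prod_pos fun p hp => by
    have := (Nat.prime_of_mem_primesBelow hp).pos; positivity
  obtain ⟨C, hC, hb⟩ := exists_badAt_bound ε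
  rw [Metric.tendsto_atTop']
  intro η hη
  have hy : Tendsto (fun W : ℕ => C * M * ((W : ℝ) - 1)⁻¹) atTop (𝓝 0) := by
    have : Tendsto (fun W : ℕ => ((W : ℝ) - 1)) atTop atTop :=
      tendsto_atTop_add_const_right _ _ tendsto_natCast_atTop_atTop
    simpa using this.inv_tendsto_atTop.const_mul (C * M)
  obtain ⟨W, hW2, hZW, hWC, hWd, hWt⟩ := ((eventually_ge_atTop 2).and
    ((eventually_ge_atTop Z).and
    ((hy.eventually_le_const (by linarith : (0 : ℝ) < η / 4)).and
    ((((tendsto_levelProduct Z).mul_const (mainConst ε)).eventually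
      (Metric.ball_mem_nhds _ (by linarith : (0 : ℝ) < η / 4))).and
    (eventually_tripTail ε (show (0 : ℝ) < η / (4 * M) by positivity)))))).exists
  have hWd' : dist ((∏ p ∈ W.primesBelow, valWeight p (valsUpTo Z p)) * mainConst ε)
      (levelDensity Z * mainConst ε) < η / 4 := hWd
  rw [Real.dist_eq, abs_lt] at hWd'
  have ht := tendsto_level ε W.primesBelow (fun p => Nat.prime_of_mem_primesBelow) (valsUpTo Z)
    (fun p hp => by
      rw [valsUpTo]
      split_ifs
      · exact subset_rfl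
      · rw [condVals]; split_ifs <;> simp)
    one_pos (fun p _ => Nat.coprime_one_right _) (Q := Set.univ) (fun _ _ _ _ => trivial)
    periodic_ones one_pos
  simp only [one_mul, density_univ, Set.inter_univ] at ht
  have hT := ((tendsto_rpow_atTop (y := (1 / 4 : ℝ)) (by norm_num)).comp
    (tendsto_id.atTop_mul_const hM : Tendsto (fun Y : ℝ => Y * M) atTop atTop)).eventually hWt
  have key : ∀ᶠ Y : ℝ in atTop, dist (((classesW ε (smallForms Z) wgt Y).ncard : ℝ) / Y)
      (levelDensity Z * mainConst ε) < η := by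
    filter_upwards [ht.eventually (Metric.ball_mem_nhds _ (by linarith : (0 : ℝ) < η / 4)),
      hT, eventually_gt_atTop (0 : ℝ)] with Y hY hYt hY0
    simp only [Function.comp_apply] at hYt
    have e4 : ((Y * M) ^ (1 / 4 : ℝ)) ^ 4 = Y * M := by
      rw [← Real.rpow_natCast, ← Real.rpow_mul (by positivity)]; norm_num
    rw [e4] at hYt
    obtain ⟨s1, s2⟩ := sieve_step ε hC hb hW2 (mul_pos hY0 hM).le
    have hY' : dist (((classesW ε (levelSet W.primesBelow (valsUpTo Z))
        (weightOn W.primesBelow) Y).ncard : ℝ) / Y)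
        ((∏ p ∈ W.primesBelow, valWeight p (valsUpTo Z p)) * mainConst ε) < η / 4 := hY
    rw [Real.dist_eq, abs_lt] at hY'
    have hfinA : (classesW ε (levelSet W.primesBelow (valsUpTo Z))
        (weightOn W.primesBelow) Y).Finite := (classes_finite ε _ _).subset
      (classesW_subset ε _ hY0.le fun f _ => weightOn_le
        (fun p hp => Nat.prime_of_mem_primesBelow hp) f)
    have hfinS : (classesW ε (smallForms Z) wgt Y).Finite :=
      hfinA.subset (small_subset_level ε hZW Y)
    have u : ((classesW ε (smallForms Z) wgt Y).ncard : ℝ) ≤ ((classesW ε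
        (levelSet W.primesBelow (valsUpTo Z)) (weightOn W.primesBelow) Y).ncard : ℝ) :=
      Nat.cast_le.mpr (Set.ncard_le_ncard (small_subset_level ε hZW Y) hfinA)
    have hfa := classes_finite ε (maxAtSet W.primesBelow) (Y * M)
    have hfm := classes_finite ε maxForms (Y * M)
    have hsd : ((classes ε (maxAtSet W.primesBelow) (Y * M) \
        classes ε maxForms (Y * M)).ncard : ℝ) ≤ C * (Y * M) * ((W : ℝ) - 1)⁻¹ := by
      have hsub : classes ε maxForms (Y * M) ⊆ classes ε (maxAtSet W.primesBelow) (Y * M) := by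
        rintro x ⟨f, hf, h⟩
        exact ⟨f, fun p hp => hf p (Nat.prime_of_mem_primesBelow hp), h⟩
      have e := congrArg (fun n : ℕ => (n : ℝ))
        (Set.ncard_sdiff_add_ncard_of_subset hsub hfa)
      push_cast at e
      linarith
    have l : ((classesW ε (levelSet W.primesBelow (valsUpTo Z))
        (weightOn W.primesBelow) Y).ncard : ℝ) ≤ ((classesW ε (smallForms Z) wgt Y).ncard : ℝ) +
          (C * (Y * M) * ((W : ℝ) - 1)⁻¹ + η / (4 * M) * (Y * M)) := by
      refine (Nat.cast_le.mpr ((Set.ncard_le_ncard (level_subset_small ε hZW hY0.le)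
        (hfinS.union (hfa.sdiff.union (classes_finite ε _ _)))).trans
          ((Set.ncard_union_le _ _).trans
            (Nat.add_le_add_left (Set.ncard_union_le _ _) _)))).trans ?_
      push_cast
      exact add_le_add le_rfl (add_le_add hsd hYt)
    rw [show C * (Y * M) * ((W : ℝ) - 1)⁻¹ + η / (4 * M) * (Y * M) =
      Y * (C * M * ((W : ℝ) - 1)⁻¹ + η / 4) by field_simp] at l
    have u' := div_le_div_of_nonneg_right u hY0.le
    have l' := div_le_div_of_nonneg_right l hY0.le
    rw [add_div, mul_div_cancel_left₀ _ hY0.ne'] at l'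
    rw [Real.dist_eq, abs_lt]
    constructor <;> linarith
  obtain ⟨Y₀, h⟩ := eventually_atTop.mp key
  exact ⟨Y₀, fun Y hY => h Y hY.le⟩

end FA.SexticCount
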