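import Fermat.Agent.SexticCount.Descent
import Fermat.Agent.SexticCount.Levels
import Mathlib.Analysis.SpecialFunctions.Pow.Real
import Mathlib.Topology.Order.MonotoneConvergence

/-!
# The asymptotic count by the weight `disc / cond ^ (2 / 3)`

The classes whose conductor is at least `Z` are `o (1) Y` by the descent and the mean three-torsion
of quadratic fields, so the densities with small triple primes converge and give the count.
-/

set_option autoImplicit false

noncomputable section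

open FA.Thue FA.DeloneFaddeev FA.CubicFormCount FA.CubicFields FA.ThreeTorsion Filter
open scoped Classical Topology Real

namespace FA.SexticCount

/-- The sign as an integer. -/
def intSign (ε : Bool) : ℤ := if ε then 1 else -1

theorem intSign_cases (ε : Bool) : intSign ε = 1 ∨ intSign ε = -1 := by cases ε <;> simp [intSign]

theorem sgn_eq_intSign (ε : Bool) : sgn ε = (intSign ε : ℝ) := by
  cases ε <;> simp [sgn, intSign]

/-- The classes with non-square discriminant. -/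
def nonCyclic : Set CubicForm := {f | f ∈ maxForms ∧ ¬ IsSquare f.disc}

/-- The resolvent of a class of bounded weight. -/
theorem exists_level {ε : Bool} {f : CubicForm} (hf : f ∈ maxForms) {Y : ℝ}
    (h0 : 0 < sgn ε * f.disc) (h1 : sgn ε * f.disc ≤ Y * wgt f) :
    ∃ k : ℕ, 1 ≤ k ∧ DiscGood (intSign ε * k) ∧
      f.disc = (cond f : ℤ) ^ 2 * (intSign ε * k) ∧
      (k : ℝ) * (cond f : ℝ) ^ (4 / 3 : ℝ) ≤ Y := by
  obtain ⟨D, hD, hgood⟩ := disc_eq_cond_sq hf (disc_ne_zero h0)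
  set s := intSign ε
  have hs : s * s = 1 := by rcases intSign_cases ε with h | h <;> simp [s, h]
  have hc : (0 : ℝ) < (cond f : ℝ) := Nat.cast_pos.mpr (cond_pos f)
  have hD0 : 0 < s * D := by
    rw [sgn_eq_intSign, hD] at h0
    push_cast at h0
    have h' : (0 : ℝ) < (cond f : ℝ) ^ 2 * ((s : ℝ) * (D : ℝ)) := by simp only [s]; linarith
    exact_mod_cast pos_of_mul_pos_right h' (by positivity)
  have hk : s * ((s * D).toNat : ℤ) = D := by
    rw [Int.toNat_of_nonneg hD0.le, ← mul_assoc, hs, one_mul]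
  refine ⟨(s * D).toNat, by omega, by rwa [hk], by rw [hk]; exact hD, ?_⟩
  have he : (((s * D).toNat : ℕ) : ℝ) = (s : ℝ) * (D : ℝ) := by
    have : (((s * D).toNat : ℤ) : ℝ) = ((s * D : ℤ) : ℝ) := by rw [Int.toNat_of_nonneg hD0.le]
    push_cast at this
    exact this
  have hsplit : (cond f : ℝ) ^ 2 = (cond f : ℝ) ^ (4 / 3 : ℝ) * (cond f : ℝ) ^ (2 / 3 : ℝ) := by
    rw [← Real.rpow_add hc, ← Real.rpow_natCast]; norm_num
  refine le_of_mul_le_mul_right ?_ (Real.rpow_pos_of_pos hc (2 / 3))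
  rw [mul_assoc, ← hsplit, he]
  rw [sgn_eq_intSign, hD, wgt] at h1
  push_cast at h1
  linarith

theorem cond_le {ε : Bool} {f : CubicForm} (hf : f ∈ maxForms) {Y : ℝ}
    (h0 : 0 < sgn ε * f.disc) (h1 : sgn ε * f.disc ≤ Y * wgt f) :
    (cond f : ℝ) ≤ Y := by
  obtain ⟨k, hk, -, -, h⟩ := exists_level hf h0 h1
  have h1 : (1 : ℝ) ≤ (cond f : ℝ) := by exact_mod_cast cond_pos f
  refine le_trans ?_ ((le_mul_of_one_le_left (Real.rpow_nonneg (by linarith) _)
    (by exact_mod_cast hk)).trans h)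
  exact (Real.rpow_one _).symm.le.trans (Real.rpow_le_rpow_of_exponent_le h1 (by norm_num))

theorem classesW_finite (ε : Bool) {Q : Set CubicForm} (hQ : Q ⊆ maxForms) (Y : ℝ) :
    (classesW ε Q wgt Y).Finite := by
  rcases lt_or_ge Y 0 with hY | hY
  · refine Set.finite_empty.subset ?_
    rintro x ⟨f, hf, -, h0, h1, -⟩
    have := cond_le (hQ hf) h0 h1
    have : (0 : ℝ) ≤ (cond f : ℝ) := Nat.cast_nonneg _
    linarith
  refine (classes_finite ε Q (Y * Y ^ (2 / 3 : ℝ))).subset ?_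
  rintro x ⟨f, hf, ha, h0, h1, rfl⟩
  exact ⟨f, hf, ha, h0, h1.trans (mul_le_mul_of_nonneg_left
    (Real.rpow_le_rpow (Nat.cast_nonneg _) (cond_le (hQ hf) h0 h1) (by norm_num)) hY), rfl⟩

/-- The classes with conductor at least `Z`. -/
def levelTail (ε : Bool) (Z : ℕ) (Y : ℝ) : Set (Set CubicForm) :=
  ⋃ c ∈ Finset.Icc (max Z 1) ⌊Y⌋₊, ⋃ k ∈ goodUpTo (intSign ε) ⌊Y / (c : ℝ) ^ (4 / 3 : ℝ)⌋₊,
    fibre c (intSign ε * k)

theorem all_subset (ε : Bool) (Z : ℕ) (Y : ℝ) :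
    classesW ε maxForms wgt Y ⊆ classesW ε (smallForms Z) wgt Y ∪ levelTail ε Z Y := by
  rintro x ⟨f, hf, ha, h0, h1, rfl⟩
  by_cases ht : ∀ p : ℕ, p.Prime → Z ≤ p → f ∉ tripleAt p
  · exact Or.inl ⟨f, ⟨hf, ht⟩, ha, h0, h1, rfl⟩
  push Not at ht
  obtain ⟨p, hp, hZp, htp⟩ := ht
  obtain ⟨k, hk1, hkg, hkd, hkY⟩ := exists_level hf h0 h1
  have hcY := cond_le hf h0 h1
  have hpc := Nat.le_of_dvd (cond_pos f) ((dvd_cond_iff hp (disc_ne_zero h0)).mpr htp)
  refine Or.inr (Set.mem_iUnion₂.mpr ⟨cond f, Finset.mem_Icc.mpr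
    ⟨max_le (hZp.trans hpc) (cond_pos f), Nat.le_floor hcY⟩,
    Set.mem_iUnion₂.mpr ⟨k, Finset.mem_filter.mpr ⟨Finset.mem_Icc.mpr ⟨hk1, Nat.le_floor ?_⟩,
      hkg⟩, f, hf, ha, hkd, rfl, rfl⟩⟩)
  rw [le_div_iff₀ (Real.rpow_pos_of_pos (Nat.cast_pos.mpr (cond_pos f)) _)]
  exact hkY

theorem exists_level_bound (ε : Bool) :
    ∃ K : ℝ, 0 ≤ K ∧ ∀ (c : ℕ), 0 < c → ∀ (Y : ℝ), 0 ≤ Y →
      (⋃ k ∈ goodUpTo (intSign ε) ⌊Y / (c : ℝ) ^ (4 / 3 : ℝ)⌋₊,
          fibre c (intSign ε * k)).Finite ∧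
      ((⋃ k ∈ goodUpTo (intSign ε) ⌊Y / (c : ℝ) ^ (4 / 3 : ℝ)⌋₊,
          fibre c (intSign ε * k)).ncard : ℝ) ≤ K * Y * (c : ℝ) ^ (-(7 / 6) : ℝ) := by
  obtain ⟨C, hC, hsum⟩ := exists_twin_sum_bound (intSign_cases ε)
  obtain ⟨B, hB, hpow⟩ :=
    FA.BrumerSilverman.exists_pow_card_le 81 (show (0 : ℝ) < 1 / 6 by norm_num)
  refine ⟨9 * 81 ^ 2 * B * C, by positivity, fun c hc Y hY => ?_⟩
  set G := goodUpTo (intSign ε) ⌊Y / (c : ℝ) ^ (4 / 3 : ℝ)⌋₊
  have hgood : ∀ k ∈ G, DiscGood (intSign ε * k) := fun k hk => (Finset.mem_filter.mp hk).2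
  have hfin : (⋃ k ∈ G, fibre c (intSign ε * k)).Finite :=
    G.finite_toSet.biUnion fun k hk => (fibre_bound hc (hgood k hk)).1
  refine ⟨hfin, ?_⟩
  set ω := c.primeFactors.card
  have hc0 : (0 : ℝ) < c := Nat.cast_pos.mpr hc
  have hω : (81 : ℝ) ^ ω ≤ B * (c : ℝ) ^ (1 / 6 : ℝ) := by
    refine (le_of_eq (by simp [ω])).trans ((hpow c.primeFactors fun p hp =>
      Nat.prime_of_mem_primeFactors hp).trans (mul_le_mul_of_nonneg_left
        (Real.rpow_le_rpow (Nat.cast_nonneg _) ?_ (by norm_num)) (by linarith)))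
    exact_mod_cast Nat.le_of_dvd hc (Nat.prod_primeFactors_dvd c)
  calc ((⋃ k ∈ G, fibre c (intSign ε * k)).ncard : ℝ)
      ≤ ((∑ k ∈ G, (fibre c (intSign ε * k)).ncard : ℕ) : ℝ) :=
        Nat.cast_le.mpr (Finset.set_ncard_biUnion_le G _)
    _ ≤ ∑ k ∈ G, 9 * 81 ^ 2 * (81 : ℝ) ^ ω * (h3Of (twin (intSign ε * k)) : ℝ) := by
        push_cast
        refine Finset.sum_le_sum fun k hk => ?_
        refine (Nat.cast_le.mpr (fibre_bound hc (hgood k hk)).2).trans (le_of_eq ?_)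
        push_cast
        simp only [ω]
        ring
    _ = 9 * 81 ^ 2 * (81 : ℝ) ^ ω * ∑ k ∈ G, (h3Of (twin (intSign ε * k)) : ℝ) := by
        rw [Finset.mul_sum]
    _ ≤ 9 * 81 ^ 2 * (B * (c : ℝ) ^ (1 / 6 : ℝ)) * (C * (Y / (c : ℝ) ^ (4 / 3 : ℝ))) := by
        refine mul_le_mul (mul_le_mul_of_nonneg_left hω (by norm_num)) ?_
          (Finset.sum_nonneg fun _ _ => Nat.cast_nonneg _) (by positivity)
        exact (hsum _).trans (mul_le_mul_of_nonneg_left (Nat.floor_le (by positivity)) hC)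
    _ = _ := by
        rw [show (-(7 / 6) : ℝ) = 1 / 6 - 4 / 3 by norm_num, Real.rpow_sub hc0]
        ring

/-- **The tail is negligible.** -/
theorem exists_tail_bound (ε : Bool) :
    ∃ e : ℕ → ℝ, Tendsto e atTop (𝓝 0) ∧ ∀ Z : ℕ, ∀ Y : ℝ, 0 ≤ Y →
      (levelTail ε Z Y).Finite ∧ ((levelTail ε Z Y).ncard : ℝ) ≤ e Z * Y := by
  obtain ⟨K, hK, h⟩ := exists_level_bound ε
  set f : ℕ → ℝ := fun n => (n : ℝ) ^ (-(7 / 6) : ℝ)
  have hf : Summable f := Real.summable_nat_rpow.mpr (by norm_num)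
  refine ⟨fun Z => K * ∑' i, f (i + Z), ?_, fun Z Y hY => ?_⟩
  · simpa using (tendsto_sum_nat_add f).const_mul K
  set I := Finset.Icc (max Z 1) ⌊Y⌋₊
  have hpos : ∀ c ∈ I, 0 < c := fun c hc => by
    have := (Finset.mem_Icc.mp hc).1; omega
  refine ⟨I.finite_toSet.biUnion fun c hc => (h c (hpos c hc) Y hY).1, ?_⟩
  refine (Nat.cast_le.mpr (Finset.set_ncard_biUnion_le I _)).trans ?_
  push_cast
  refine (Finset.sum_le_sum fun c hc => (h c (hpos c hc) Y hY).2).trans ?_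
  rw [← Finset.mul_sum]
  have hinj : Set.InjOn (fun c : ℕ => c - Z) I := fun a ha b hb e => by
    have := (Finset.mem_Icc.mp (Finset.mem_coe.mp ha)).1
    have := (Finset.mem_Icc.mp (Finset.mem_coe.mp hb)).1
    have : a - Z = b - Z := e
    omega
  have hle : ∑ c ∈ I, f c ≤ ∑' i, f (i + Z) := by
    calc ∑ c ∈ I, f c = ∑ i ∈ I.image (fun c => c - Z), f (i + Z) := by
          rw [Finset.sum_image hinj]
          exact Finset.sum_congr rfl fun c hc => by
            rw [Nat.sub_add_cancel ((le_max_left _ _).trans (Finset.mem_Icc.mp hc).1)]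
      _ ≤ _ := Summable.sum_le_tsum _ (fun i _ => by positivity)
          ((summable_nat_add_iff Z).mpr hf)
  calc K * Y * ∑ c ∈ I, f c ≤ K * Y * ∑' i, f (i + Z) :=
        mul_le_mul_of_nonneg_left hle (by positivity)
    _ = _ := by ring

theorem sharp_le_locWeight {p : ℕ} (hp : p.Prime) : sharpFactor p ≤ locWeight p := by
  have h : valWeight p {1} ≤ valWeight p (condVals p) := by
    refine Finset.sum_le_sum_of_subset_of_nonneg ?_ fun w _ _ =>
      mul_nonneg (by rw [density]; positivity) (by positivity)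
    rw [condVals]; split_ifs <;> simp
  rwa [valWeight_one hp] at h

theorem levelDensity_mono : Monotone levelDensity := by
  refine monotone_nat_of_le_succ fun n => ?_
  refine mul_le_mul_of_nonneg_right ?_ (by positivity)
  have hsub : n.primesBelow ⊆ (n + 1).primesBelow := fun p hp => by
    obtain ⟨h1, h2⟩ := Nat.mem_primesBelow.mp hp
    exact Nat.mem_primesBelow.mpr ⟨by omega, h2⟩
  refine Finset.prod_le_prod_of_subset_of_one_le hsub (fun p hp => ?_) fun p hp _ => ?_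
  · have hpp := Nat.prime_of_mem_primesBelow hp
    exact div_nonneg ((sharpFactor_pos hpp).le.trans (sharp_le_locWeight hpp))
      (sharpFactor_pos hpp).le
  · have hpp := Nat.prime_of_mem_primesBelow hp
    rw [le_div_iff₀ (sharpFactor_pos hpp), one_mul]
    exact sharp_le_locWeight hpp

theorem mainConst_pos (ε : Bool) : 0 < mainConst ε := by
  cases ε <;> simp [mainConst_true, mainConst_false] <;> positivity

theorem small_subset_all (ε : Bool) (Z : ℕ) (Y : ℝ) :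
    classesW ε (smallForms Z) wgt Y ⊆ classesW ε maxForms wgt Y := by
  rintro x ⟨f, hf, h⟩
  exact ⟨f, hf.1, h⟩

/-- Lower and upper bound for the whole count. -/
theorem eventually_between (ε : Bool) {e : ℕ → ℝ}
    (he : ∀ Z : ℕ, ∀ Y : ℝ, 0 ≤ Y →
      (levelTail ε Z Y).Finite ∧ ((levelTail ε Z Y).ncard : ℝ) ≤ e Z * Y)
    (Z : ℕ) {δ : ℝ} (hδ : 0 < δ) :
    ∀ᶠ Y : ℝ in atTop,
      levelDensity Z * mainConst ε - δ ≤ ((classesW ε maxForms wgt Y).ncard : ℝ) / Y ∧
      ((classesW ε maxForms wgt Y).ncard : ℝ) / Y ≤ levelDensity Z * mainConst ε + δ + e Z := by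
  filter_upwards [(tendsto_small ε Z).eventually (Metric.ball_mem_nhds _ hδ),
    eventually_gt_atTop (0 : ℝ)] with Y hY hY0
  have hY' : dist (((classesW ε (smallForms Z) wgt Y).ncard : ℝ) / Y)
      (levelDensity Z * mainConst ε) < δ := hY
  rw [Real.dist_eq, abs_lt] at hY'
  have hfa := classesW_finite ε (subset_refl maxForms) Y
  have hfs := classesW_finite ε (fun f (hf : f ∈ smallForms Z) => hf.1) Y
  obtain ⟨hft, ht⟩ := he Z Y hY0.le
  have l := div_le_div_of_nonneg_right (Nat.cast_le (α := ℝ).mpr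
    (Set.ncard_le_ncard (small_subset_all ε Z Y) hfa)) hY0.le
  have u' : ((classesW ε maxForms wgt Y).ncard : ℝ) ≤
      ((classesW ε (smallForms Z) wgt Y).ncard : ℝ) + e Z * Y := by
    refine (Nat.cast_le.mpr ((Set.ncard_le_ncard (all_subset ε Z Y) (hfs.union hft)).trans
      (Set.ncard_union_le _ _))).trans ?_
    push_cast
    linarith
  have u := div_le_div_of_nonneg_right u' hY0.le
  rw [add_div, mul_div_cancel_right₀ _ hY0.ne'] at u
  constructor <;> linarith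

theorem exists_density : ∃ Λ : ℝ, 0 < Λ ∧ Tendsto levelDensity atTop (𝓝 Λ) ∧
    ∀ ε : Bool, Tendsto (fun Y : ℝ => ((classesW ε maxForms wgt Y).ncard : ℝ) / Y) atTop
      (𝓝 (Λ * mainConst ε)) := by
  choose e he0 he using exists_tail_bound
  have hbdd : BddAbove (Set.range levelDensity) := by
    refine ⟨(levelDensity 0 * mainConst true + 1 + e true 0 + 1) / mainConst true, ?_⟩
    rintro x ⟨Z, rfl⟩
    rw [le_div_iff₀ (mainConst_pos true)]
    obtain ⟨Y, h1, h2⟩ := ((eventually_between true (he true) Z one_pos).and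
      (eventually_between true (he true) 0 one_pos)).exists
    linarith [h1.1, h2.2]
  have hlim := tendsto_atTop_ciSup levelDensity_mono hbdd
  set Λ := ⨆ Z, levelDensity Z
  have hle : ∀ Z, levelDensity Z ≤ Λ := le_ciSup hbdd
  have h0 : 0 < levelDensity 0 := by
    rw [levelDensity, tripleGain]
    simp [Nat.primesBelow]
    positivity
  refine ⟨Λ, h0.trans_le (hle 0), hlim, fun ε => ?_⟩
  have hm := mainConst_pos ε
  rw [Metric.tendsto_nhds]
  intro η hη
  obtain ⟨Z, hZ1, hZ2⟩ := (((hlim.mul_const (mainConst ε)).eventually_const_lt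
    (show Λ * mainConst ε - η / 3 < Λ * mainConst ε by linarith)).and
    ((he0 ε).eventually_lt_const (show (0 : ℝ) < η / 3 by linarith))).exists
  filter_upwards [eventually_between ε (he ε) Z (show (0 : ℝ) < η / 3 by linarith)] with Y hY
  have := mul_le_mul_of_nonneg_right (hle Z) hm.le
  rw [Real.dist_eq, abs_lt]
  constructor <;> linarith [hY.1, hY.2]

/-- The cyclic classes are negligible. -/
theorem tendsto_cyclic (ε : Bool) :
    Tendsto (fun Y : ℝ =>
      ((classesW ε {f | f ∈ maxForms ∧ IsSquare f.disc} wgt Y).ncard : ℝ) / Y) atTop (𝓝 0) := by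
  obtain ⟨B, hB, hpow⟩ :=
    FA.BrumerSilverman.exists_pow_card_le 81 (show (0 : ℝ) < 1 / 6 by norm_num)
  set K : ℝ := 9 * 81 ^ 2 * B * (h3Of (twin 1) : ℝ)
  have hg1 : DiscGood 1 := ⟨Or.inr rfl, fun p hp h => by
    unfold DiscBad at h
    split_ifs at h with h2
    · norm_num at h
    · have hd : p ^ 2 ∣ 1 := by exact_mod_cast h
      have := Nat.le_of_dvd one_pos hd
      nlinarith [hp.two_le]⟩
  have hzero : Tendsto (fun Y : ℝ => K * Y ^ (-(1 / 8) : ℝ)) atTop (𝓝 0) := by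
    simpa using (tendsto_rpow_neg_atTop (show (0 : ℝ) < 1 / 8 by norm_num)).const_mul K
  refine squeeze_zero' ?_ ?_ hzero
  · filter_upwards [eventually_ge_atTop (0 : ℝ)] with Y hY
    positivity
  filter_upwards [eventually_ge_atTop (1 : ℝ)] with Y hY
  set T := Y ^ (3 / 4 : ℝ)
  have hY0 : 0 < Y := by linarith
  set I := Finset.Icc 1 ⌊T⌋₊
  have hpos : ∀ c ∈ I, 0 < c := fun c hc => (Finset.mem_Icc.mp hc).1
  have hsub : classesW ε {f | f ∈ maxForms ∧ IsSquare f.disc} wgt Y ⊆ ⋃ c ∈ I, fibre c 1 := by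
    rintro x ⟨f, ⟨hf, hsq⟩, ha, h0, h1, rfl⟩
    obtain ⟨k, hk1, hkg, hkd, hkY⟩ := exists_level hf h0 h1
    have hc : (0 : ℝ) < cond f := Nat.cast_pos.mpr (cond_pos f)
    have hD : intSign ε * k = 1 := by
      by_contra hne
      refine (FundDisc.not_isSquare ⟨hne, hkg⟩) ?_
      obtain ⟨r, hr⟩ := hsq
      refine Rat.isSquare_intCast_iff.mp ⟨(r : ℚ) / (cond f : ℚ), ?_⟩
      have hcq : (cond f : ℚ) ≠ 0 := Nat.cast_ne_zero.mpr (cond_pos f).ne'
      rw [hkd] at hr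
      have hrq := congrArg (fun z : ℤ => (z : ℚ)) hr
      push_cast at hrq ⊢
      field_simp
      linarith
    refine Set.mem_iUnion₂.mpr ⟨cond f, Finset.mem_Icc.mpr ⟨cond_pos f, Nat.le_floor ?_⟩,
      f, hf, ha, by rw [hkd, hD], rfl, rfl⟩
    have h43 : (cond f : ℝ) ^ (4 / 3 : ℝ) ≤ Y :=
      (le_mul_of_one_le_left (Real.rpow_nonneg hc.le _) (by exact_mod_cast hk1)).trans hkY
    have := Real.rpow_le_rpow (Real.rpow_nonneg hc.le _) h43 (show (0 : ℝ) ≤ 3 / 4 by norm_num)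
    rwa [← Real.rpow_mul hc.le, show (4 / 3 : ℝ) * (3 / 4) = 1 by norm_num, Real.rpow_one] at this
  have hfin : (⋃ c ∈ I, fibre c 1).Finite :=
    I.finite_toSet.biUnion fun c hc => (fibre_bound (hpos c hc) hg1).1
  rw [div_le_iff₀ hY0]
  refine (Nat.cast_le.mpr ((Set.ncard_le_ncard hsub hfin).trans
    (Finset.set_ncard_biUnion_le I _))).trans ?_
  push_cast
  have hbound : ∀ c ∈ I, ((fibre c 1).ncard : ℝ) ≤ K * T ^ (1 / 6 : ℝ) := fun c hc => by
    refine (Nat.cast_le.mpr (fibre_bound (hpos c hc) hg1).2).trans ?_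
    have h81 : (81 : ℝ) ^ c.primeFactors.card ≤ B * T ^ (1 / 6 : ℝ) := by
      refine (le_of_eq (by norm_num)).trans ((hpow c.primeFactors fun p hp =>
        Nat.prime_of_mem_primeFactors hp).trans (mul_le_mul_of_nonneg_left
          (Real.rpow_le_rpow (Nat.cast_nonneg _) ?_ (by norm_num)) (by linarith)))
      refine le_trans ?_ (Nat.floor_le (show 0 ≤ T by positivity))
      exact_mod_cast (Nat.le_of_dvd (hpos c hc) (Nat.prod_primeFactors_dvd c)).trans
        (Finset.mem_Icc.mp hc).2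
    push_cast
    rw [pow_add]
    calc (9 : ℝ) * ((81 : ℝ) ^ c.primeFactors.card * 81 ^ 2) * (h3Of (twin 1) : ℝ)
        ≤ 9 * (B * T ^ (1 / 6 : ℝ) * 81 ^ 2) * (h3Of (twin 1) : ℝ) := by gcongr
      _ = _ := by simp only [K]; ring
  refine (Finset.sum_le_card_nsmul I _ _ hbound).trans ?_
  rw [nsmul_eq_mul, Nat.card_Icc, Nat.add_sub_cancel]
  refine (mul_le_mul_of_nonneg_right (Nat.floor_le (show 0 ≤ T by positivity))
    (by positivity)).trans (le_of_eq ?_)
  have e1 : T * T ^ (1 / 6 : ℝ) = Y ^ (-(1 / 8) : ℝ) * Y := by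
    simp only [T]
    rw [← Real.rpow_mul hY0.le, ← Real.rpow_add hY0, ← Real.rpow_add_one hY0.ne']
    norm_num
  linear_combination K * e1

/-- **The count of the classes of non-cyclic fields.** -/
theorem exists_constant :
    ∃ P : ℝ, 0 < P ∧
      Tendsto (fun n : ℕ => ∏ p ∈ n.primesBelow, sexticFactor p) atTop (𝓝 P) ∧
      ∀ ε : Bool, Tendsto (fun Y : ℝ => ((classesW ε nonCyclic wgt Y).ncard : ℝ) / Y) atTop
        (𝓝 ((if ε then 1 / 12 else 1 / 4) * P)) := by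
  obtain ⟨Λ, hΛ, hd, hcount⟩ := exists_density
  refine ⟨Λ * (π ^ 2 / 6), by positivity, ?_, fun ε => ?_⟩
  · have hz : Tendsto (fun n : ℕ => ∏ p ∈ n.primesBelow, (1 - ((p : ℝ) ^ 2)⁻¹)) atTop
        (𝓝 (π ^ 2 / 6)⁻¹) := by
      have h2 : (riemannZeta ((2 : ℕ) : ℂ)).re = π ^ 2 / 6 := by
        rw [Nat.cast_ofNat, riemannZeta_two]; norm_cast
      have h := tendsto_eulerFactor (le_refl 2)
      rwa [h2] at h
    have h := (hd.mul hz).const_mul ((π ^ 2 / 6) ^ 2)
    rw [show (π ^ 2 / 6) ^ 2 * (Λ * (π ^ 2 / 6)⁻¹) = Λ * (π ^ 2 / 6) by field_simp] at h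
    refine h.congr fun n => ?_
    have hne : ∀ p ∈ n.primesBelow, (1 : ℝ) - ((p : ℝ) ^ 2)⁻¹ ≠ 0 := fun p hp h0 => by
      have := sharpFactor_pos (Nat.prime_of_mem_primesBelow hp)
      rw [sharpFactor, h0] at this
      norm_num at this
    have hgain : tripleGain n = ∏ p ∈ n.primesBelow, sexticFactor p / (1 - ((p : ℝ) ^ 2)⁻¹) :=
      Finset.prod_congr rfl fun p hp => by
        have := hne p hp
        rw [locWeight_eq (Nat.prime_of_mem_primesBelow hp), sharpFactor]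
        field_simp
    rw [levelDensity, hgain, Finset.prod_div_distrib]
    have hB := Finset.prod_ne_zero_iff.mpr hne
    generalize ∏ p ∈ n.primesBelow, (1 - ((p : ℝ) ^ 2)⁻¹) = B at hB ⊢
    field_simp
  · have h := (hcount ε).sub (tendsto_cyclic ε)
    rw [sub_zero] at h
    have hc : Λ * mainConst ε = (if ε then (1 / 12 : ℝ) else 1 / 4) * (Λ * (π ^ 2 / 6)) := by
      cases ε <;> simp [mainConst_true, mainConst_false] <;> field_simp <;> ring
    rw [hc] at h
    refine h.congr' ?_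
    filter_upwards [eventually_gt_atTop (0 : ℝ)] with Y hY
    rw [← sub_div]
    congr 1
    have hsplit : classesW ε maxForms wgt Y = classesW ε nonCyclic wgt Y ∪
        classesW ε {f | f ∈ maxForms ∧ IsSquare f.disc} wgt Y := by
      ext x
      constructor
      · rintro ⟨f, hf, h⟩
        by_cases hs : IsSquare f.disc
        · exact Or.inr ⟨f, ⟨hf, hs⟩, h⟩
        · exact Or.inl ⟨f, ⟨hf, hs⟩, h⟩
      · rintro (⟨f, ⟨hf, -⟩, h⟩ | ⟨f, ⟨hf, -⟩, h⟩) <;> exact ⟨f, hf, h⟩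
    rw [hsplit, Set.ncard_union_eq ?_ (classesW_finite ε (fun f hf => hf.1) Y)
      (classesW_finite ε (fun f hf => hf.1) Y)]
    · push_cast; ring
    · rw [Set.disjoint_left]
      rintro x ⟨f, ⟨-, hns⟩, -, -, -, rfl⟩ ⟨g, ⟨-, hs⟩, -, -, -, e⟩
      exact hns (twisted_disc (twisted_of_classSet e) ▸ hs)

end FA.SexticCount
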