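import Fermat.Agent.ThreeTorsion.Fields
import Fermat.Agent.ThreeTorsion.Tail

/-!
# The conductor of a maximal form, prime by prime

At a prime where a maximal form has a triple root the conductor has the factor `p`, except that
at `3` it has `9` when `81 ∣ disc`; the discriminant is the square of the conductor times a
fundamental discriminant or `1`.
-/

set_option autoImplicit false

noncomputable section

open FA.Thue FA.DeloneFaddeev FA.CubicFormCount FA.CubicFields FA.ThreeTorsion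
open scoped Classical

namespace FA.SexticCount

/-- The factor of the conductor at `p`. -/
def condAt (p : ℕ) (f : CubicForm) : ℕ :=
  if f ∈ tripleAt p then (if p = 3 ∧ (81 : ℤ) ∣ f.disc then 9 else p) else 1

/-- Its possible values. -/
def condVals (p : ℕ) : Finset ℕ := if p = 3 then {1, 3, 9} else {1, p}

theorem condAt_mem_vals (p : ℕ) (f : CubicForm) : condAt p f ∈ condVals p := by
  rw [condAt, condVals]
  by_cases h3 : p = 3
  · subst h3
    simp only [if_true]
    split_ifs <;> simp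
  · rw [if_neg h3]
    split_ifs with h1 h2 <;> first | exact absurd h2.1 h3 | simp

theorem condAt_pos {p : ℕ} (hp : p.Prime) (f : CubicForm) : 0 < condAt p f := by
  rw [condAt]
  split_ifs <;> first | exact hp.pos | norm_num

theorem condAt_dvd {p : ℕ} (_ : p.Prime) (f : CubicForm) : condAt p f ∣ p ^ 2 := by
  rw [condAt]
  split_ifs with h1 h2
  · rw [h2.1]; norm_num
  · exact dvd_pow_self p two_ne_zero
  · exact one_dvd _

theorem twisted_moved (f : CubicForm) (o : Option ℕ) : Twisted f (actMat f (colMat o)) :=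
  ⟨colMat o, by rw [det_colMat]; exact isUnit_one, by rw [det_colMat, scale_one]⟩

theorem invariant_tripleAt (p : ℕ) :
    ∀ f g, Twisted f g → f ∈ tripleAt p → g ∈ tripleAt p := by
  rintro f g h ⟨g', h', hg'⟩
  exact ⟨g', twisted_trans (twisted_symm h) h', hg'⟩

theorem condAt_twisted (p : ℕ) {f g : CubicForm} (h : Twisted f g) :
    condAt p g = condAt p f := by
  have ht : g ∈ tripleAt p ↔ f ∈ tripleAt p :=
    ⟨invariant_tripleAt p g f (twisted_symm h), invariant_tripleAt p f g h⟩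
  rw [condAt, condAt, twisted_disc h]
  simp only [ht]

/-- The forms maximal at `p` with factor `w`. -/
def locSet (p w : ℕ) : Set CubicForm := {f | f ∉ badAt p ∧ condAt p f = w}

theorem invariant_locSet (p w : ℕ) :
    ∀ f g, Twisted f g → f ∈ locSet p w → g ∈ locSet p w := fun f g h ⟨h1, h2⟩ =>
  ⟨fun hb => h1 (invariant_badAt p g f (twisted_symm h) hb), (condAt_twisted p h).trans h2⟩

/-- The part with `81 ∣ disc`, read off the coefficients modulo `9`. -/
def tripNine : Set CubicForm :=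
  {f | ∃ o ∈ Finset.insertNone (Finset.range 3),
    StrictTrip 3 (actMat f (colMat o)) ∧ (9 : ℤ) ∣ (actMat f (colMat o)).b}

theorem exists_strict {p : ℕ} (hp : p.Prime) {f : CubicForm} (h : f ∉ badAt p)
    (ht : f ∈ tripleAt p) :
    ∃ o ∈ Finset.insertNone (Finset.range p), StrictTrip (p : ℤ) (actMat f (colMat o)) :=
  ((sharpBad_cases hp f).mp (Or.inr ht)).resolve_left h

theorem tripleAt_of_strict {p : ℕ} (hp : p.Prime) {f : CubicForm} {o : Option ℕ}
    (ho : o ∈ Finset.insertNone (Finset.range p))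
    (h : StrictTrip (p : ℤ) (actMat f (colMat o))) : f ∈ tripleAt p :=
  (mem_tripleAt_iff hp f).mpr ⟨o, ho, h.1⟩

/-- The discriminant at a strict triple root. -/
theorem disc_strict {p : ℤ} {g : CubicForm} (h : TripDvd p g) :
    ∃ A B C, g.a = p * A ∧ g.b = p * B ∧ g.c = p * C ∧ g.disc = p ^ 2 *
      (p ^ 2 * B ^ 2 * C ^ 2 - 4 * p ^ 2 * A * C ^ 3 - 4 * p * B ^ 3 * g.d
        - 27 * A ^ 2 * g.d ^ 2 + 18 * p * A * B * C * g.d) := by
  obtain ⟨⟨A, hA⟩, ⟨B, hB⟩, ⟨C, hC⟩⟩ := h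
  refine ⟨A, B, C, hA, hB, hC, ?_⟩
  simp only [CubicForm.disc, hA, hB, hC]
  ring

theorem strict_units {p : ℤ} {g : CubicForm} (h : StrictTrip p g) {A : ℤ} (hA : g.a = p * A) :
    ¬ p ∣ A ∧ ¬ p ∣ g.d :=
  ⟨fun hd => h.2.1 (by rw [hA, sq]; exact mul_dvd_mul_left p hd), h.2.2⟩

/-- At `3` the discriminant decides between the two kinds of triple roots. -/
theorem disc_three {g : CubicForm} (h : StrictTrip 3 g) :
    (27 : ℤ) ∣ g.disc ∧ ((81 : ℤ) ∣ g.disc ↔ (9 : ℤ) ∣ g.b) ∧ ¬ (729 : ℤ) ∣ g.disc := by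
  obtain ⟨A, B, C, hA, hB, hC, he⟩ := disc_strict h.1
  obtain ⟨hA3, hd3⟩ := strict_units h hA
  have h3 : Prime (3 : ℤ) := Int.prime_three
  set d := g.d
  set R := 3 * B ^ 2 * C ^ 2 - 12 * A * C ^ 3 - 4 * B ^ 3 * d - 9 * A ^ 2 * d ^ 2
    + 18 * A * B * C * d
  have he' : g.disc = 27 * R := by rw [he]; simp only [R]; ring
  refine ⟨Dvd.intro _ he'.symm, ?_⟩
  have h9 : (9 : ℤ) ∣ g.b ↔ (3 : ℤ) ∣ B := by
    rw [hB, show (9 : ℤ) = 3 * 3 by norm_num, mul_dvd_mul_iff_left (by norm_num)]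
  by_cases hB3 : (3 : ℤ) ∣ B
  · obtain ⟨B', rfl⟩ := hB3
    set R' := 9 * B' ^ 2 * C ^ 2 - 4 * A * C ^ 3 - 36 * B' ^ 3 * d - 3 * A ^ 2 * d ^ 2
      + 18 * A * B' * C * d
    have e81 : g.disc = 81 * R' := by rw [he']; simp only [R, R']; ring
    refine ⟨iff_of_true (Dvd.intro _ e81.symm) (h9.mpr (Dvd.intro _ rfl)), fun h729 => ?_⟩
    rw [e81, show (729 : ℤ) = 81 * 9 by norm_num, mul_dvd_mul_iff_left (by norm_num)] at h729
    by_cases hC3 : (3 : ℤ) ∣ C
    · obtain ⟨C', rfl⟩ := hC3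
      have h' : (3 : ℤ) ∣ (A * d) ^ 2 := by
        obtain ⟨k, hk⟩ := h729
        refine ⟨9 * B' ^ 2 * C' ^ 2 - 12 * A * C' ^ 3 - 4 * B' ^ 3 * d + 6 * A * B' * C' * d - k,
          ?_⟩
        simp only [R'] at hk
        linarith
      exact (h3.dvd_or_dvd (h3.dvd_of_dvd_pow h')).elim hA3 hd3
    · have h' : (3 : ℤ) ∣ A * C ^ 3 := by
        obtain ⟨k, hk⟩ := h729
        refine ⟨3 * B' ^ 2 * C ^ 2 - A * C ^ 3 - 12 * B' ^ 3 * d - A ^ 2 * d ^ 2
          + 6 * A * B' * C * d - 3 * k, ?_⟩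
        simp only [R'] at hk
        linarith
      exact (h3.dvd_or_dvd h').elim hA3 fun h => hC3 (h3.dvd_of_dvd_pow h)
  · have hR : ¬ (3 : ℤ) ∣ R := by
      rintro ⟨k, hk⟩
      have h' : (3 : ℤ) ∣ B ^ 3 * d := by
        refine ⟨B ^ 2 * C ^ 2 - 4 * A * C ^ 3 - B ^ 3 * d - 3 * A ^ 2 * d ^ 2
          + 6 * A * B * C * d - k, ?_⟩
        simp only [R] at hk
        linarith
      exact (h3.dvd_or_dvd h').elim (fun h => hB3 (h3.dvd_of_dvd_pow h)) hd3
    have n81 : ¬ (81 : ℤ) ∣ g.disc := fun h81 => hR (by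
      rw [he', show (81 : ℤ) = 27 * 3 by norm_num, mul_dvd_mul_iff_left (by norm_num)] at h81
      exact h81)
    exact ⟨iff_of_false n81 fun h => hB3 (h9.mp h),
      fun h729 => n81 ((by norm_num : (81 : ℤ) ∣ 729).trans h729)⟩

theorem mem_tripNine_iff {f : CubicForm} (hb : f ∉ badAt 3) :
    f ∈ tripNine ↔ condAt 3 f = 9 := by
  constructor
  · rintro ⟨o, ho, hs, h9⟩
    have h81 : (81 : ℤ) ∣ f.disc := by
      rw [← twisted_disc (twisted_moved f o)]
      exact (disc_three hs).2.1.mpr h9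
    rw [condAt, if_pos (tripleAt_of_strict Nat.prime_three ho hs), if_pos ⟨rfl, h81⟩]
  · intro h
    rw [condAt] at h
    split_ifs at h with h1 h2
    · obtain ⟨o, ho, hs⟩ := exists_strict Nat.prime_three hb h1
      refine ⟨o, ho, hs, (disc_three hs).2.1.mp ?_⟩
      rw [twisted_disc (twisted_moved f o)]
      exact h2.2
    all_goals omega

theorem tripNine_subset {f : CubicForm} (h : f ∈ tripNine) : f ∈ sharpBad 3 ∧ f ∉ badAt 3 := by
  obtain ⟨o, ho, hs, -⟩ := h
  exact ⟨Or.inr (tripleAt_of_strict Nat.prime_three ho hs),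
    badAt_not_strict Nat.prime_three ho hs⟩

theorem locSet_one {p : ℕ} (hp : p.Prime) : locSet p 1 = (sharpBad p)ᶜ := by
  ext f
  simp only [locSet, Set.mem_ofPred_eq, Set.mem_compl_iff, sharpBad, Set.mem_union, not_or]
  refine and_congr_right fun _ => ⟨fun h ht => ?_, fun h => by rw [condAt, if_neg h]⟩
  rw [condAt, if_pos ht] at h
  have := hp.one_lt
  split_ifs at h
  all_goals omega

theorem locSet_self {p : ℕ} (hp : p.Prime) (h3 : p ≠ 3) :
    locSet p p = sharpBad p \ badAt p := by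
  ext f
  simp only [locSet, Set.mem_ofPred_eq, Set.mem_sdiff, sharpBad, Set.mem_union]
  constructor
  · rintro ⟨hb, h⟩
    refine ⟨Or.inr ?_, hb⟩
    by_contra ht
    rw [condAt, if_neg ht] at h
    exact hp.one_lt.ne h
  · rintro ⟨h | h, hb⟩
    · exact absurd h hb
    · exact ⟨hb, by rw [condAt, if_pos h, if_neg fun e => h3 e.1]⟩

theorem locSet_three : locSet 3 3 = (sharpBad 3 \ badAt 3) \ tripNine := by
  ext f
  simp only [Set.mem_sdiff, sharpBad, Set.mem_union]
  constructor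
  · rintro ⟨hb, h⟩
    refine ⟨⟨Or.inr ?_, hb⟩, fun h9 => by rw [(mem_tripNine_iff hb).mp h9] at h; norm_num at h⟩
    by_contra ht
    rw [condAt, if_neg ht] at h
    norm_num at h
  · rintro ⟨⟨h | h, hb⟩, h9⟩
    · exact absurd h hb
    · refine ⟨hb, ?_⟩
      rw [condAt, if_pos h, if_neg fun e => h9 ((mem_tripNine_iff hb).mpr ?_)]
      rw [condAt, if_pos h, if_pos e]

theorem locSet_nine : locSet 3 9 = tripNine := by
  ext f
  exact ⟨fun ⟨hb, h⟩ => (mem_tripNine_iff hb).mpr h,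
    fun h => ⟨(tripNine_subset h).2, (mem_tripNine_iff (tripNine_subset h).2).mp h⟩⟩

theorem periodic_tripNine : PeriodicSet 9 tripNine := by
  rintro v w h ⟨o, ho, hs, h9⟩
  have hc : FormCongr (9 : ℤ) (mkForm v) (mkForm w) := by
    have h' : ∀ i, (9 : ℤ) ∣ v i - w i := fun i => by simpa using h i
    exact ⟨h' 0, h' 1, h' 2, h' 3⟩
  have hc' := formCongr_actMat hc (colMat o)
  exact ⟨o, ho, strictTrip_congr (by norm_num; exact hc') hs, (dvd_sub_right h9).mp hc'.2.1⟩

theorem periodic_sdiff {m : ℕ} {A B : Set CubicForm} (hA : PeriodicSet m A)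
    (hB : PeriodicSet m B) : PeriodicSet m (A \ B) := fun v w h ⟨h1, h2⟩ =>
  ⟨hA v w h h1, periodic_compl hB v w h h2⟩

theorem periodic_locSet {p : ℕ} (hp : p.Prime) {w : ℕ} (hw : w ∈ condVals p) :
    PeriodicSet (p ^ 2) (locSet p w) := by
  by_cases h3 : p = 3
  · subst h3
    simp only [condVals, if_pos, Finset.mem_insert, Finset.mem_singleton] at hw
    rcases hw with rfl | rfl | rfl
    · rw [locSet_one hp]; exact periodic_compl (periodic_sharpBad 3)
    · rw [locSet_three]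
      exact periodic_sdiff (periodic_sdiff (periodic_sharpBad 3) (periodic_badAt 3))
        periodic_tripNine
    · rw [locSet_nine]; exact periodic_tripNine
  · simp only [condVals, if_neg h3, Finset.mem_insert, Finset.mem_singleton] at hw
    rcases hw with rfl | rfl
    · rw [locSet_one hp]; exact periodic_compl (periodic_sharpBad _)
    · rw [locSet_self hp h3]; exact periodic_sdiff (periodic_sharpBad _) (periodic_badAt _)

theorem residues_sdiff {m : ℕ} {A B : Set CubicForm} (h : B ⊆ A) :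
    (residues m (A \ B)).card + (residues m B).card = (residues m A).card := by
  rw [← Finset.card_union_of_disjoint (Finset.disjoint_left.mpr fun v h1 h2 =>
    (CubicFields.mem_residues.mp h1).2.2 (CubicFields.mem_residues.mp h2).2)]
  congr 1
  ext v
  simp only [Finset.mem_union, CubicFields.mem_residues, Set.mem_sdiff]
  exact ⟨fun h' => h'.elim (fun ⟨a, b, _⟩ => ⟨a, b⟩) fun ⟨a, b⟩ => ⟨a, h b⟩,
    fun ⟨a, b⟩ => (em (mkForm v ∈ B)).elim (fun hb => Or.inr ⟨a, hb⟩)
      fun hb => Or.inl ⟨a, b, hb⟩⟩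

theorem card_strictNine :
    (residues (3 ^ 2) {f | StrictTrip 3 f ∧ (9 : ℤ) ∣ f.b}).card = 36 := by
  have e : residues (3 ^ 2) {f | StrictTrip 3 f ∧ (9 : ℤ) ∣ f.b} =
      Fintype.piFinset ![({3, 6} : Finset ℤ), {0}, {0, 3, 6}, {1, 2, 4, 5, 7, 8}] := by
    ext v
    simp only [CubicFields.mem_residues, Fintype.mem_piFinset, Fin.forall_fin_succ,
      Set.mem_ofPred_eq, StrictTrip, TripDvd, mkForm, Finset.mem_Ico]
    simp
    omega
  rw [e, Fintype.card_piFinset, Fin.prod_univ_four]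
  rfl

theorem card_tripNine : (residues (3 ^ 2) tripNine).card = 144 := by
  set P := Finset.insertNone (Finset.range 3)
  set R := fun o => residues (3 ^ 2)
    {f | StrictTrip 3 (actMat f (colMat o)) ∧ (9 : ℤ) ∣ (actMat f (colMat o)).b}
  have he : residues (3 ^ 2) tripNine = P.biUnion R := by
    ext v
    simp only [Finset.mem_biUnion, R, CubicFields.mem_residues, Set.mem_ofPred_eq, tripNine]
    exact ⟨fun ⟨hb, o, ho, h⟩ => ⟨o, ho, hb, h⟩, fun ⟨o, ho, hb, h⟩ => ⟨hb, o, ho, h⟩⟩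
  have hR : ∀ o ∈ P, (R o).card = 36 := fun o _ => by
    rw [← card_strictNine]
    refine card_moved (P := fun f => StrictTrip 3 f ∧ (9 : ℤ) ∣ f.b) (by norm_num)
      (fun f g h hf => ?_) o
    have h' : FormCongr (9 : ℤ) f g := by simpa using h
    exact ⟨strictTrip_congr (by norm_num; exact h') hf.1, (dvd_sub_right hf.2).mp h'.2.1⟩
  rw [he, Finset.card_biUnion, Finset.sum_const_nat hR, Finset.card_insertNone, Finset.card_range]
  intro o ho o' ho' hne
  refine Finset.disjoint_left.mpr fun v h1 h2 => hne ?_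
  exact strictTrip_unique Nat.prime_three ho ho' (CubicFields.mem_residues.mp h1).2.1
    (CubicFields.mem_residues.mp h2).2.1.1.1

/-- The weighted local density. -/
def locWeight (p : ℕ) : ℝ :=
  ∑ w ∈ condVals p, density (p ^ 2) (locSet p w) * (w : ℝ) ^ (2 / 3 : ℝ)

/-- The factor of Bhargava and Wood. -/
def sexticFactor (p : ℕ) : ℝ :=
  if p = 3 then 2 / 3 * (4 / 3 + (3 : ℝ) ^ (-(5 / 3) : ℝ) + 2 * (3 : ℝ) ^ (-(7 / 3) : ℝ))
  else (1 - (p : ℝ)⁻¹) * (1 + (p : ℝ)⁻¹ + (p : ℝ) ^ (-(4 / 3) : ℝ))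

theorem density_tripleOnly {p : ℕ} (hp : p.Prime) :
    density (p ^ 2) (sharpBad p \ badAt p) =
      (1 - ((p : ℝ) ^ 2)⁻¹) * (1 - (p : ℝ)⁻¹) * ((p : ℝ) ^ 2)⁻¹ := by
  have h := residues_sdiff (m := p ^ 2) (B := badAt p) (A := sharpBad p) Set.subset_union_left
  have h1 := card_residues_badAt hp
  have h2 := card_residues_sharpBad hp
  have hp0 : (p : ℝ) ≠ 0 := by exact_mod_cast hp.ne_zero
  rw [density]
  have e0 := congrArg (fun n : ℕ => (n : ℝ)) h
  have e1 := congrArg (fun n : ℕ => (n : ℝ)) h1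
  have e2 := congrArg (fun n : ℕ => (n : ℝ)) h2
  push_cast at e0 e1 e2 ⊢
  field_simp
  linear_combination e0 + e2 - e1

theorem locWeight_eq {p : ℕ} (hp : p.Prime) :
    locWeight p = (1 - ((p : ℝ) ^ 2)⁻¹) * sexticFactor p := by
  have hu : density (p ^ 2) (locSet p 1) = (1 - ((p : ℝ) ^ 2)⁻¹) ^ 2 := by
    rw [locSet_one hp, density_compl_sharpBad hp, sharpFactor]
  by_cases h3 : p = 3
  · subst h3
    have hT := density_tripleOnly hp
    have h9 : density (3 ^ 2) (locSet 3 9) = 16 / 729 := by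
      rw [locSet_nine, density, card_tripNine]; norm_num
    have h3' : density (3 ^ 2) (locSet 3 3) = 32 / 729 := by
      rw [locSet_three]
      have h := residues_sdiff (m := 3 ^ 2) (A := sharpBad 3 \ badAt 3) (B := tripNine)
        fun f hf => ⟨(tripNine_subset hf).1, (tripNine_subset hf).2⟩
      rw [card_tripNine] at h
      have e := congrArg (fun n : ℕ => (n : ℝ)) h
      push_cast at e
      rw [density] at hT ⊢
      norm_num at hT e ⊢
      linarith
    simp only [locWeight, condVals, if_pos, sexticFactor]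
    rw [Finset.sum_insert (by decide), Finset.sum_insert (by decide), Finset.sum_singleton, hu,
      h9, h3']
    have e1 : ((3 : ℕ) : ℝ) ^ (2 / 3 : ℝ) = 27 * (3 : ℝ) ^ (-(7 / 3) : ℝ) := by
      rw [show (27 : ℝ) = 3 ^ (3 : ℝ) by norm_num, ← Real.rpow_add (by norm_num)]
      norm_num
    have e2 : ((9 : ℕ) : ℝ) ^ (2 / 3 : ℝ) = 27 * (3 : ℝ) ^ (-(5 / 3) : ℝ) := by
      rw [show (27 : ℝ) = 3 ^ (3 : ℝ) by norm_num, ← Real.rpow_add (by norm_num),
        show ((9 : ℕ) : ℝ) = 3 ^ (2 : ℝ) by norm_num, ← Real.rpow_mul (by norm_num)]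
      norm_num
    rw [e1, e2]
    norm_num
    ring
  · have hp0 : (p : ℝ) ≠ 0 := by exact_mod_cast hp.ne_zero
    simp only [locWeight, condVals, if_neg h3, sexticFactor]
    rw [Finset.sum_insert (by simp [hp.one_lt.ne]), Finset.sum_singleton, hu, locSet_self hp h3,
      density_tripleOnly hp, Nat.cast_one, Real.one_rpow, mul_one, mul_assoc,
      show ((p : ℝ) ^ 2)⁻¹ * (p : ℝ) ^ (2 / 3 : ℝ) = (p : ℝ) ^ (-(4 / 3) : ℝ) by
        rw [← Real.rpow_natCast, ← Real.rpow_neg (Nat.cast_nonneg p),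
          ← Real.rpow_add (by exact_mod_cast hp.pos)]
        norm_num]
    field_simp
    ring

/-- A double point modulo `3`. -/
theorem three_table : ∀ a b c d : ZMod 3,
    b ^ 2 * c ^ 2 - 4 * a * c ^ 3 - 4 * b ^ 3 * d - 27 * a ^ 2 * d ^ 2 + 18 * a * b * c * d = 0 →
      (a = 0 ∧ b = 0) ∨ ∃ r : ZMod 3,
        a * r ^ 3 + b * r ^ 2 + c * r + d = 0 ∧ 3 * a * r ^ 2 + 2 * b * r + c = 0 := by
  decide

theorem not_nine_dvd {f : CubicForm} (h : f ∉ sharpBad 3) : ¬ (9 : ℤ) ∣ f.disc := by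
  intro hd
  refine h ((mem_sharpBad_iff Nat.prime_three f).mpr ?_)
  have hd' : ((f.disc : ℤ) : ZMod 3) = 0 :=
    (ZMod.intCast_zmod_eq_zero_iff_dvd _ 3).mpr ((by norm_num : (3 : ℤ) ∣ 9).trans hd)
  simp only [CubicForm.disc] at hd'
  push_cast at hd'
  obtain ⟨o, ho, ha, hb⟩ : ∃ o ∈ Finset.insertNone (Finset.range 3),
      (3 : ℤ) ∣ (actMat f (colMat o)).a ∧ (3 : ℤ) ∣ (actMat f (colMat o)).b := by
    rcases three_table _ _ _ _ hd' with ⟨e1, e2⟩ | ⟨r, r1, r2⟩
    · refine ⟨none, by simp, ?_⟩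
      simp only [colMat, actMat_one]
      exact ⟨(ZMod.intCast_zmod_eq_zero_iff_dvd _ 3).mp e1,
        (ZMod.intCast_zmod_eq_zero_iff_dvd _ 3).mp e2⟩
    · refine ⟨some r.val, by simpa using r.val_lt, ?_, ?_⟩ <;>
        rw [show (3 : ℤ) = ((3 : ℕ) : ℤ) from rfl, ← ZMod.intCast_zmod_eq_zero_iff_dvd] <;>
        simp [colMat, actMat, CubicForm.act, CubicForm.eval]
      · linear_combination r1 - (f.a : ZMod 3) * (ZMod.pow_card r)
      · linear_combination -r2
  refine ⟨o, ho, ha, hb, ?_⟩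
  set g := actMat f (colMat o)
  rw [← twisted_disc (twisted_moved f o)] at hd
  obtain ⟨A, hA⟩ := ha
  obtain ⟨B, hB⟩ := hb
  obtain ⟨k, hk⟩ := hd
  have h4 : (3 : ℤ) ∣ 4 * A * g.c ^ 3 := by
    refine ⟨B ^ 2 * g.c ^ 2 - 12 * B ^ 3 * g.d - 27 * A ^ 2 * g.d ^ 2
      + 18 * A * B * g.c * g.d - k, ?_⟩
    simp only [CubicForm.disc] at hk
    rw [show g.a = 3 * A from hA, show g.b = 3 * B from hB] at hk
    linarith
  rcases Int.prime_three.dvd_or_dvd h4 with h' | h'
  · refine Or.inl ?_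
    rcases Int.prime_three.dvd_or_dvd h' with h'' | h''
    · norm_num at h''
    · rw [hA]; exact (show ((3 : ℕ) : ℤ) ^ 2 = 3 * 3 by norm_num) ▸ mul_dvd_mul_left 3 h''
  · exact Or.inr (Int.prime_three.dvd_of_dvd_pow h')

/-- **The discriminant at one prime**: `condAt p f ^ 2` divides it and the quotient is fundamental
at `p`. -/
theorem disc_condAt {p : ℕ} (hp : p.Prime) {f : CubicForm} (hb : f ∉ badAt p) :
    ∃ D : ℤ, f.disc = (condAt p f : ℤ) ^ 2 * D ∧ ¬ DiscBad p D ∧
      (p = 2 → condAt p f ≠ 1 → D % 4 = 1) := by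
  by_cases ht : f ∈ tripleAt p
  · obtain ⟨o, ho, hs⟩ := exists_strict hp hb ht
    have hg := twisted_disc (twisted_moved f o)
    set g := actMat f (colMat o)
    by_cases h3 : p = 3
    · subst h3
      obtain ⟨h27, h81, h729⟩ := disc_three hs
      rw [hg] at h27 h81 h729
      by_cases h : (81 : ℤ) ∣ f.disc
      · rw [condAt, if_pos ht, if_pos ⟨rfl, h⟩]
        obtain ⟨D, hD⟩ := h
        refine ⟨D, by rw [hD]; norm_num, fun hbad => h729 ?_, fun e => by omega⟩
        simp only [DiscBad, show (3 : ℕ) ≠ 2 by norm_num, if_false] at hbad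
        rw [hD, show (729 : ℤ) = 81 * ((3 : ℕ) : ℤ) ^ 2 by norm_num]
        exact mul_dvd_mul_left _ hbad
      · rw [condAt, if_pos ht, if_neg fun e => h e.2]
        obtain ⟨D, hD⟩ := (by norm_num : (9 : ℤ) ∣ 27).trans h27
        refine ⟨D, by rw [hD]; norm_num, fun hbad => h ?_, fun e => by omega⟩
        simp only [DiscBad, show (3 : ℕ) ≠ 2 by norm_num, if_false] at hbad
        rw [hD, show (81 : ℤ) = 9 * ((3 : ℕ) : ℤ) ^ 2 by norm_num]
        exact mul_dvd_mul_left _ hbad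
    rw [condAt, if_pos ht, if_neg fun e => h3 e.1]
    obtain ⟨A, B, C, hA, hB, hC, he⟩ := disc_strict hs.1
    obtain ⟨hA', hd'⟩ := strict_units hs hA
    rw [hg] at he
    refine ⟨_, he, ?_, ?_⟩
    · by_cases h2 : p = 2
      · subst h2
        simp only [DiscBad, if_true]
        obtain ⟨i, hi⟩ := Int.not_even_iff_odd.mp fun e => hA' (by exact_mod_cast e.two_dvd)
        obtain ⟨j, hj⟩ := Int.not_even_iff_odd.mp fun e => hd' (by exact_mod_cast e.two_dvd)
        rw [hi, hj]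
        ring_nf
        omega
      · rw [DiscBad, if_neg h2]
        intro hbad
        have hP : Prime (p : ℤ) := Nat.prime_iff_prime_int.mp hp
        have h' : (p : ℤ) ∣ 27 * (A * g.d) ^ 2 := by
          obtain ⟨k, hk⟩ := hbad
          exact ⟨p * B ^ 2 * C ^ 2 - 4 * p * A * C ^ 3 - 4 * B ^ 3 * g.d
            + 18 * A * B * C * g.d - p * k, by linarith⟩
        rcases hP.dvd_or_dvd h' with h | h
        · have : p ∣ 3 ^ 3 := by exact_mod_cast h
          exact h3 ((Nat.prime_dvd_prime_iff_eq hp Nat.prime_three).mp (hp.dvd_of_dvd_pow this))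
        · exact (hP.dvd_or_dvd (hP.dvd_of_dvd_pow h)).elim hA' hd'
    · rintro rfl -
      obtain ⟨i, hi⟩ := Int.not_even_iff_odd.mp fun e => hA' (by exact_mod_cast e.two_dvd)
      obtain ⟨j, hj⟩ := Int.not_even_iff_odd.mp fun e => hd' (by exact_mod_cast e.two_dvd)
      rw [hi, hj]
      ring_nf
      omega
  · rw [condAt, if_neg ht]
    refine ⟨f.disc, by simp, ?_, fun _ h => absurd rfl h⟩
    have hs : f ∉ sharpBad p := fun h => h.elim hb ht
    by_cases h2 : p = 2
    · subst h2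
      simp only [DiscBad, if_true]
      exact fun h => hs ((sharpBad_iff_two f).mpr h)
    · rw [DiscBad, if_neg h2]
      by_cases h3 : p = 3
      · subst h3
        exact fun h => not_nine_dvd hs (by simpa using h)
      · exact fun h => hs ((sharpBad_iff_odd hp h2 h3 f).mpr h)

theorem disc_mod_four (f : CubicForm) : f.disc % 4 = 0 ∨ f.disc % 4 = 1 := by
  have e : f.disc = (f.b * f.c + f.a * f.d) ^ 2 +
      4 * (-f.a * f.c ^ 3 - f.b ^ 3 * f.d - 7 * f.a ^ 2 * f.d ^ 2 + 4 * f.a * f.b * f.c * f.d) := by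
    simp only [CubicForm.disc]; ring
  rw [e, Int.add_mul_emod_self_left]
  rcases Int.even_or_odd (f.b * f.c + f.a * f.d) with ⟨j, hj⟩ | ⟨j, hj⟩ <;> rw [hj]
  · left; ring_nf; omega
  · right; ring_nf; omega

theorem prime_dvd_disc {p : ℕ} {f : CubicForm} (ht : f ∈ tripleAt p) :
    (p : ℤ) ^ 2 ∣ f.disc := by
  obtain ⟨g, hg, h⟩ := ht
  rw [← twisted_disc hg]
  exact disc_of_dblAt ⟨h.1, h.2.1, Or.inr h.2.2⟩

/-- The conductor. -/
def cond (f : CubicForm) : ℕ := ∏ p ∈ f.disc.natAbs.primeFactors, condAt p f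

theorem cond_pos (f : CubicForm) : 0 < cond f :=
  Finset.prod_pos fun _ hp => condAt_pos (Nat.prime_of_mem_primeFactors hp) f

theorem cond_twisted {f g : CubicForm} (h : Twisted f g) : cond g = cond f := by
  rw [cond, cond, twisted_disc h]
  exact Finset.prod_congr rfl fun p _ => condAt_twisted p h

theorem prod_condAt_eq {f : CubicForm} (hd : f.disc ≠ 0) {S : Finset ℕ}
    (h : ∀ p : ℕ, p.Prime → f ∈ tripleAt p → p ∈ S) (hS : ∀ p ∈ S, p.Prime) :
    ∏ p ∈ S, condAt p f = cond f := by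
  set S' := f.disc.natAbs.primeFactors
  have h1 : ∏ p ∈ S, condAt p f = ∏ p ∈ S ∪ S', condAt p f :=
    Finset.prod_subset Finset.subset_union_left fun p hp hpS => by
      rw [condAt, if_neg fun ht => hpS (h p ((Finset.mem_union.mp hp).elim (hS p)
        Nat.prime_of_mem_primeFactors) ht)]
  rw [h1, cond]
  refine (Finset.prod_subset Finset.subset_union_right fun p hp hpS => ?_).symm
  have hpp := (Finset.mem_union.mp hp).elim (hS p) Nat.prime_of_mem_primeFactors
  rw [condAt, if_neg fun ht => hpS (Nat.mem_primeFactors.mpr ⟨hpp, ?_, ?_⟩)]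
  · exact Int.natCast_dvd.mp ((dvd_pow_self _ two_ne_zero).trans (prime_dvd_disc ht))
  · exact Int.natAbs_ne_zero.mpr hd

theorem condAt_dvd_cond {p : ℕ} (hp : p.Prime) {f : CubicForm} (hd : f.disc ≠ 0) :
    condAt p f ∣ cond f := by
  by_cases ht : f ∈ tripleAt p
  · exact Finset.dvd_prod_of_mem (fun q => condAt q f) (Nat.mem_primeFactors.mpr ⟨hp,
      Int.natCast_dvd.mp ((dvd_pow_self _ two_ne_zero).trans (prime_dvd_disc ht)),
      Int.natAbs_ne_zero.mpr hd⟩)
  · rw [condAt, if_neg ht]; exact one_dvd _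

theorem dvd_cond_iff {p : ℕ} (hp : p.Prime) {f : CubicForm} (hd : f.disc ≠ 0) :
    p ∣ cond f ↔ f ∈ tripleAt p := by
  constructor
  · intro h
    obtain ⟨q, hq, hpq⟩ := (Prime.dvd_finsetProd_iff hp.prime _).mp h
    have hqp := Nat.prime_of_mem_primeFactors hq
    have hqe : p = q :=
      (Nat.prime_dvd_prime_iff_eq hp hqp).mp (hp.dvd_of_dvd_pow (hpq.trans (condAt_dvd hqp f)))
    subst hqe
    by_contra ht
    rw [condAt, if_neg ht] at hpq
    exact hp.one_lt.ne' (Nat.dvd_one.mp hpq)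
  · intro h
    refine dvd_trans ?_ (condAt_dvd_cond hp hd)
    rw [condAt, if_pos h]
    split_ifs with e
    · rw [e.1]; norm_num
    · exact dvd_rfl

theorem discBad_mul_sq {p : ℕ} {c D : ℤ} (hc : ¬ (p : ℤ) ∣ c) (h : DiscBad p D) :
    DiscBad p (c ^ 2 * D) := by
  unfold DiscBad at h ⊢
  split_ifs with h2
  · subst h2
    simp only [if_true] at h
    obtain ⟨j, rfl⟩ := Int.not_even_iff_odd.mp fun e => hc (by exact_mod_cast e.two_dvd)
    obtain ⟨k, rfl⟩ : (4 : ℤ) ∣ D := by omega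
    rcases h with h | h
    · left
      obtain ⟨l, rfl⟩ : (4 : ℤ) ∣ k := by omega
      ring_nf
      omega
    · right
      obtain ⟨l, hl⟩ : ∃ l, k = 4 * l + 1 := ⟨k / 4, by omega⟩
      subst hl
      ring_nf
      omega
  · rw [if_neg h2] at h
    exact h.mul_left _

/-- **The discriminant of a maximal form** is the square of the conductor times a number that is
fundamental at every prime. -/
theorem disc_eq_cond_sq {f : CubicForm} (hf : f ∈ maxForms) (hd : f.disc ≠ 0) :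
    ∃ D : ℤ, f.disc = (cond f : ℤ) ^ 2 * D ∧ DiscGood D := by
  set S := f.disc.natAbs.primeFactors
  have hco : Pairwise fun p q : ℕ => p.Prime → q.Prime →
      IsCoprime ((condAt p f : ℤ) ^ 2) ((condAt q f : ℤ) ^ 2) := fun p q hne hp hq =>
    (Nat.isCoprime_iff_coprime.mpr (Nat.Coprime.coprime_dvd_left (condAt_dvd hp f)
      (Nat.Coprime.coprime_dvd_right (condAt_dvd hq f)
        (Nat.Coprime.pow 2 2 ((Nat.coprime_primes hp hq).mpr hne))))).pow
  have hdvd : (cond f : ℤ) ^ 2 ∣ f.disc := by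
    rw [cond, Nat.cast_prod, ← Finset.prod_pow]
    refine Finset.prod_dvd_of_coprime (fun p hp q hq hne => hco hne
      (Nat.prime_of_mem_primeFactors hp) (Nat.prime_of_mem_primeFactors hq)) fun p hp => ?_
    obtain ⟨D, hD, -⟩ := disc_condAt (Nat.prime_of_mem_primeFactors hp)
      (hf p (Nat.prime_of_mem_primeFactors hp))
    exact Dvd.intro _ hD.symm
  obtain ⟨D, hD⟩ := hdvd
  refine ⟨D, hD, ?_, fun p hp hbad => ?_⟩
  · obtain ⟨D₂, h2, -, h24⟩ := disc_condAt Nat.prime_two (hf 2 Nat.prime_two)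
    obtain ⟨e, he⟩ := condAt_dvd_cond Nat.prime_two hd
    by_cases h1 : condAt 2 f = 1
    · have hodd : ¬ 2 ∣ cond f := fun h => by
        have := (dvd_cond_iff Nat.prime_two hd).mp h
        rw [condAt, if_pos this, if_neg (by norm_num)] at h1
        norm_num at h1
      obtain ⟨j, hj⟩ := Nat.not_even_iff_odd.mp fun e => hodd e.two_dvd
      have := disc_mod_four f
      rw [hD, hj] at this
      push_cast at this
      ring_nf at this
      omega
    · have h4 : D₂ % 4 = 1 := h24 rfl h1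
      have hD2 : D₂ = (e : ℤ) ^ 2 * D := by
        refine mul_left_cancel₀ (pow_ne_zero 2 (Int.natCast_ne_zero.mpr
          (condAt_pos Nat.prime_two f).ne')) ?_
        rw [← h2, hD, he]; push_cast; ring
      rcases Int.even_or_odd (e : ℤ) with ⟨j, hj⟩ | ⟨j, hj⟩ <;> rw [hD2, hj] at h4 <;>
        ring_nf at h4 <;> omega
  · obtain ⟨D', hD', hgood, -⟩ := disc_condAt hp (hf p hp)
    obtain ⟨e, he⟩ := condAt_dvd_cond hp hd
    have hw : (condAt p f : ℤ) ≠ 0 := Int.natCast_ne_zero.mpr (condAt_pos hp f).ne'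
    have hD2 : D' = (e : ℤ) ^ 2 * D := by
      refine mul_left_cancel₀ (pow_ne_zero 2 hw) ?_
      rw [← hD', hD, he]; push_cast; ring
    refine hgood (hD2 ▸ discBad_mul_sq (fun hpe => ?_) hbad)
    have hpe' : p ∣ e := Int.natCast_dvd_natCast.mp hpe
    have ht := (dvd_cond_iff hp hd).mp (he ▸ hpe'.mul_left _)
    have hS : p ∈ S := Nat.mem_primeFactors.mpr ⟨hp,
      Int.natCast_dvd.mp ((dvd_pow_self _ two_ne_zero).trans (prime_dvd_disc ht)),
      Int.natAbs_ne_zero.mpr hd⟩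
    have hrest : e = ∏ q ∈ S.erase p, condAt q f := by
      refine mul_left_cancel₀ (condAt_pos hp f).ne' ?_
      rw [← he, cond, Finset.mul_prod_erase S (fun q => condAt q f) hS]
    obtain ⟨q, hq, hpq⟩ := (Prime.dvd_finsetProd_iff hp.prime _).mp (hrest ▸ hpe')
    obtain ⟨hne, hqS⟩ := Finset.mem_erase.mp hq
    have hqp := Nat.prime_of_mem_primeFactors hqS
    exact hne ((Nat.prime_dvd_prime_iff_eq hp hqp).mp
      (hp.dvd_of_dvd_pow (hpq.trans (condAt_dvd hqp f)))).symm

end FA.SexticCount
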