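import Fermat.Agent.CubicFieldsBound.Count
import Fermat.Agent.SexticCount.Local
import Fermat.Agent.ThreeTorsion.Main

/-!
# Cubic fields of given conductor and resolvent

The descent of the cubic fields with discriminant `c² D` needs no prime of `D` in the support: at
such a prime the resolvent is ramified and an element with cubic norm has exponent divisible by
three. So they number at most `9 · 81 ^ (ω (c) + 2)` times the three-torsion of the twin field.
-/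

set_option autoImplicit false
set_option linter.style.haveILetI false

noncomputable section

open NumberField IsDedekindDomain Module Finset
open FA.MordellAverage FA.BrumerSilverman
open FA.Thue FA.DeloneFaddeev FA.CubicFormCount FA.CubicFields FA.ThreeTorsion FA.CubicFieldsBound
open scoped Classical

namespace FA.SexticCount

/-- The discriminant of the twin field. -/
def twin (D : ℤ) : ℤ := if (3 : ℤ) ∣ D then -(D / 3) else -3 * D

theorem twin_good {D : ℤ} (h : DiscGood D) : DiscGood (twin D) := by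
  obtain ⟨h4, hb⟩ := h
  rw [twin]
  split_ifs with h3
  · obtain ⟨k, rfl⟩ := h3
    rw [Int.mul_ediv_cancel_left _ (by norm_num : (3 : ℤ) ≠ 0)]
    refine ⟨by omega, fun p hp hbad => hb p hp ?_⟩
    unfold DiscBad at hbad ⊢
    split_ifs at hbad ⊢ with h2
    · omega
    · exact (dvd_neg.mp hbad).mul_left _
  · refine ⟨by omega, fun p hp hbad => ?_⟩
    have hb' := hb p hp
    unfold DiscBad at hbad hb'
    split_ifs at hbad hb' with h2
    · exact hb' (by omega)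
    · by_cases hp3 : p = 3
      · subst hp3
        push_cast at hbad
        exact h3 (by omega)
      · refine hb' ((IsCoprime.pow_left ?_).dvd_of_dvd_mul_left hbad)
        rw [IsCoprime.neg_right_iff, show (3 : ℤ) = ((3 : ℕ) : ℤ) from rfl,
          Nat.isCoprime_iff_coprime]
        exact (Nat.coprime_primes hp Nat.prime_three).mpr hp3

theorem twin_twin {D : ℤ} (h : DiscGood D) : twin (twin D) = D := by
  have h9 : ¬ (9 : ℤ) ∣ D := fun hd => h.2 3 Nat.prime_three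
    (by rw [DiscBad, if_neg (by norm_num)]; exact_mod_cast hd)
  simp only [twin]
  split_ifs <;> omega

theorem twin_relation (D : ℤ) (c : ℕ) :
    ∃ g : ℤ, -3 * ((c : ℤ) ^ 2 * D) = g ^ 2 * twin D := by
  rw [twin]
  split_ifs with h3
  · obtain ⟨k, rfl⟩ := h3
    exact ⟨3 * c, by rw [Int.mul_ediv_cancel_left _ (by norm_num : (3 : ℤ) ≠ 0)]; ring⟩
  · exact ⟨c, by ring⟩

theorem twin_size {s : ℤ} (hs : s = 1 ∨ s = -1) {k : ℕ} (hk : DiscGood (s * k)) (h1 : 1 ≤ k) :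
    0 < -s * twin (s * k) ∧ -s * twin (s * k) ≤ 3 * k := by
  have h9 : ¬ (9 : ℤ) ∣ s * k := fun hd => hk.2 3 Nat.prime_three
    (by rw [DiscBad, if_neg (by norm_num)]; exact_mod_cast hd)
  rw [twin]
  rcases hs with rfl | rfl <;> split_ifs <;> omega

/-- The three-torsion of the field of discriminant `E`, one if there is none. -/
def h3Of (E : ℤ) : ℕ :=
  if h : FundDisc E then
    letI := (exists_sqrt_field h).choose_spec.choose
    letI := (exists_sqrt_field h).choose_spec.choose_spec.choose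
    cl3Card (exists_sqrt_field h).choose
  else 1

theorem h3Of_spec {E : ℤ} (h : FundDisc E) :
    ∃ (K : Type) (_ : Field K) (_ : NumberField K),
      finrank ℚ K = 2 ∧ discr K = E ∧ cl3Card K = h3Of E := by
  refine ⟨_, _, (exists_sqrt_field h).choose_spec.choose_spec.choose,
    (exists_sqrt_field h).choose_spec.choose_spec.choose_spec.1,
    (exists_sqrt_field h).choose_spec.choose_spec.choose_spec.2, ?_⟩
  rw [h3Of, dif_pos h]

theorem h3Of_not_fund {E : ℤ} (h : ¬ FundDisc E) : h3Of E = 1 := dif_neg h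

/-- **The three-torsion of quadratic fields has bounded mean.** -/
theorem exists_h3_sum_bound {t : ℤ} (ht : t = 1 ∨ t = -1) :
    ∃ C : ℝ, 0 ≤ C ∧ ∀ N : ℕ, ∑ k ∈ goodUpTo t N, (h3Of (t * k) : ℝ) ≤ C * N := by
  obtain ⟨A, hA⟩ := sum_bound ht
  obtain ⟨B, hB, hcl⟩ := exists_classes_bound (formSign t)
  refine ⟨2 * (B * 27) + 1 + |A| + 1, by positivity, fun N => ?_⟩
  rcases Nat.eq_zero_or_pos N with rfl | hN
  · simp [goodUpTo]
  have hN1 : (1 : ℝ) ≤ N := by exact_mod_cast hN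
  set I := fieldIdx t (N : ℝ)
  have hI : I = (goodUpTo t N).filter fun k : ℕ => t * (k : ℤ) ≠ 1 := by
    simp only [I, fieldIdx, Nat.floor_natCast]
  set φ : Fin I.card ≃ {k // k ∈ I} := I.equivFin.symm
  choose F hF hFN hd hdisc hcard using fun i => h3Of_spec (mem_fieldIdx ht (φ i).2).1
  have h := (abs_le.mp (hA (N : ℝ) F hF hFN φ fun i => ⟨hd i, hdisc i⟩)).2
  have hu : (1 : ℝ) ≤ (if t = 1 then (3 : ℝ) else 1) := by split_ifs <;> norm_num
  set T := ∑ i, ((letI := hF i; letI := hFN i; cl3Card (F i)) : ℝ)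
  have hT : T = ∑ k ∈ I, (h3Of (t * k) : ℝ) := by
    simp only [T, hcard]
    rw [← Finset.sum_coe_sort I]
    exact Fintype.sum_equiv φ _ _ fun i => rfl
  have hT0 : 0 ≤ T := Finset.sum_nonneg fun i _ => Nat.cast_nonneg _
  have h1 : T ≤ 2 * ((classes (formSign t) fundForms (27 * N)).ncard : ℝ) + I.card + |A| := by
    have := le_mul_of_one_le_left hT0 hu
    linarith [le_abs_self A]
  have h2 : ((classes (formSign t) fundForms (27 * N)).ncard : ℝ) ≤ B * 27 * N := by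
    have hsub : classes (formSign t) fundForms (27 * N) ⊆
        classes (formSign t) Set.univ (27 * N) := by
      rintro c ⟨f, -, h⟩
      exact ⟨f, trivial, h⟩
    refine (Nat.cast_le.mpr (Set.ncard_le_ncard hsub (classes_finite _ _ _))).trans
      ((hcl _ (by positivity)).trans (le_of_eq (by ring)))
  have h3 : (I.card : ℝ) ≤ N := by
    refine Nat.cast_le.mpr ?_
    rw [hI]
    exact ((card_le_card (filter_subset _ _)).trans (card_filter_le _ _)).trans (by simp)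
  have hrest : ∑ k ∈ (goodUpTo t N).filter (fun k : ℕ => ¬ t * (k : ℤ) ≠ 1),
      (h3Of (t * k) : ℝ) ≤ 1 := by
    have hs : (goodUpTo t N).filter (fun k : ℕ => ¬ t * (k : ℤ) ≠ 1) ⊆ {1} := fun k hk => by
      have h := (mem_filter.mp hk).2
      rw [not_not] at h
      rcases ht with rfl | rfl <;> simp at h ⊢ <;> omega
    have hval : ∀ k ∈ (goodUpTo t N).filter (fun k : ℕ => ¬ t * (k : ℤ) ≠ 1),
        (h3Of (t * k) : ℝ) = 1 := fun k hk => by
      have h := (mem_filter.mp hk).2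
      simp only [not_not] at h
      rw [h, h3Of_not_fund fun h => h.1 rfl, Nat.cast_one]
    rw [sum_congr rfl hval]
    rw [sum_const, nsmul_eq_mul, mul_one]
    exact_mod_cast (card_le_card hs).trans (card_singleton 1).le
  rw [← sum_filter_add_sum_filter_not (goodUpTo t N) (fun k : ℕ => t * (k : ℤ) ≠ 1), ← hI, ← hT]
  nlinarith [abs_nonneg A]

/-- **The mean over the twins.** -/
theorem exists_twin_sum_bound {s : ℤ} (hs : s = 1 ∨ s = -1) :
    ∃ C : ℝ, 0 ≤ C ∧ ∀ N : ℕ, ∑ k ∈ goodUpTo s N, (h3Of (twin (s * k)) : ℝ) ≤ C * N := by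
  have ht : -s = 1 ∨ -s = -1 := by omega
  obtain ⟨C, hC, h⟩ := exists_h3_sum_bound ht
  refine ⟨3 * C, by positivity, fun N => ?_⟩
  set j : ℕ → ℕ := fun k => (-s * twin (s * k)).toNat
  have hmem : ∀ k ∈ goodUpTo s N, DiscGood (s * k) ∧ 1 ≤ k ∧ k ≤ N := fun k hk => by
    obtain ⟨h1, h2⟩ := mem_filter.mp hk
    exact ⟨h2, mem_Icc.mp h1⟩
  have hj : ∀ k ∈ goodUpTo s N, -s * (j k : ℤ) = twin (s * k) := fun k hk => by
    obtain ⟨hg, h1, -⟩ := hmem k hk
    simp only [j]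
    rw [Int.toNat_of_nonneg (twin_size hs hg h1).1.le]
    rcases hs with rfl | rfl <;> ring
  have hinj : Set.InjOn j (goodUpTo s N) := fun a ha b hb e => by
    have h1 := hj a ha
    rw [e, hj b hb] at h1
    have h2 := congrArg twin h1
    rw [twin_twin (hmem a ha).1, twin_twin (hmem b hb).1] at h2
    rcases hs with rfl | rfl <;> omega
  calc ∑ k ∈ goodUpTo s N, (h3Of (twin (s * k)) : ℝ)
      = ∑ k ∈ goodUpTo s N, (h3Of (-s * (j k : ℤ)) : ℝ) :=
        sum_congr rfl fun k hk => by rw [hj k hk]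
    _ = ∑ e ∈ (goodUpTo s N).image j, (h3Of (-s * (e : ℤ)) : ℝ) := by
        rw [sum_image hinj]
    _ ≤ ∑ e ∈ goodUpTo (-s) (3 * N), (h3Of (-s * (e : ℤ)) : ℝ) := by
        refine sum_le_sum_of_subset_of_nonneg (fun e he => ?_) fun _ _ _ => Nat.cast_nonneg _
        obtain ⟨k, hk, rfl⟩ := mem_image.mp he
        obtain ⟨hg, h1, h2⟩ := hmem k hk
        obtain ⟨a, b⟩ := twin_size hs hg h1
        refine mem_filter.mpr ⟨mem_Icc.mpr ⟨by simp only [j]; omega, by simp only [j]; omega⟩, ?_⟩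
        rw [hj k hk]
        exact twin_good hg
    _ ≤ _ := (h (3 * N)).trans (le_of_eq (by push_cast; ring))

variable {K : Type} [Field K] [NumberField K]

omit [NumberField K] in
theorem intCast_not_mem (v : HeightOneSpectrum (𝓞 K)) {q : ℕ} (hq : q.Prime)
    (hv : (q : 𝓞 K) ∈ v.asIdeal) {n : ℤ} (hn : ¬ (q : ℤ) ∣ n) : (n : 𝓞 K) ∉ v.asIdeal := by
  intro h
  obtain ⟨a, b, hab⟩ := ((Nat.prime_iff_prime_int.mp hq).coprime_iff_not_dvd.mpr hn).map
    (Int.castRingHom (𝓞 K))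
  simp only [eq_intCast, Int.cast_natCast] at hab
  exact v.isPrime.ne_top ((Ideal.eq_top_iff_one _).mpr
    (hab ▸ v.asIdeal.add_mem (v.asIdeal.mul_mem_left a hv) (v.asIdeal.mul_mem_left b h)))

theorem expo_eq_zero (v : HeightOneSpectrum (𝓞 K)) {z : 𝓞 K} (hz : z ∉ v.asIdeal) :
    expo v z = 0 := by
  have hz0 : z ≠ 0 := fun h => hz (h ▸ v.asIdeal.zero_mem)
  by_contra h
  exact hz ((expo_ne_zero_iff v hz0).mp h)

/-- The exponent of `a + b σ` at a prime that ramifies. -/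
theorem expo_ramified (v : HeightOneSpectrum (𝓞 K)) {q : ℕ} (hq : q.Prime)
    (hv : (q : 𝓞 K) ∈ v.asIdeal) {E : ℤ} (h1 : (q : ℤ) ∣ E) (h2 : ¬ (q : ℤ) ^ 2 ∣ E)
    {σ : 𝓞 K} (hσ : σ ^ 2 = (E : 𝓞 K)) {a b : ℤ} (hab : ¬ ((q : ℤ) ∣ a ∧ (q : ℤ) ∣ b))
    (hne : (a : 𝓞 K) + (b : 𝓞 K) * σ ≠ 0) :
    expo v ((a : 𝓞 K) + (b : 𝓞 K) * σ) = if (q : ℤ) ∣ a then expo v σ else 0 := by
  obtain ⟨E₁, rfl⟩ := h1
  have hE₁ : ¬ (q : ℤ) ∣ E₁ := fun h => h2 (by rw [sq]; exact mul_dvd_mul_left _ h)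
  push_cast at hσ
  have hσv : σ ∈ v.asIdeal := v.isPrime.mem_of_pow_mem 2
    (by rw [hσ]; exact v.asIdeal.mul_mem_right _ hv)
  split_ifs with ha
  · obtain ⟨a', rfl⟩ := ha
    have hb : ¬ (q : ℤ) ∣ b := fun h => hab ⟨Dvd.intro _ rfl, h⟩
    have hnot : σ * (a' : 𝓞 K) + ((b * E₁ : ℤ) : 𝓞 K) ∉ v.asIdeal := fun h => by
      refine intCast_not_mem v hq hv (fun hd => ?_)
        ((Submodule.add_mem_iff_right _ (v.asIdeal.mul_mem_right _ hσv)).mp h)
      exact ((Nat.prime_iff_prime_int.mp hq).dvd_or_dvd hd).elim hb hE₁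
    have hE₁v := intCast_not_mem v hq hv hE₁
    have hE0 : (E₁ : 𝓞 K) ≠ 0 := fun h => hE₁v (h ▸ v.asIdeal.zero_mem)
    have hσ0 : σ ≠ 0 := fun h => by
      rw [h, zero_pow two_ne_zero] at hσ
      exact (mul_ne_zero (Nat.cast_ne_zero.mpr hq.ne_zero) hE0) hσ.symm
    have e : (E₁ : 𝓞 K) * (((((q : ℤ) * a' : ℤ)) : 𝓞 K) + (b : 𝓞 K) * σ) =
        σ * (σ * (a' : 𝓞 K) + ((b * E₁ : ℤ) : 𝓞 K)) := by
      push_cast
      linear_combination -(a' : 𝓞 K) * hσ
    have h := congrArg (expo v) e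
    rw [expo_mul v hE0 hne, expo_mul v hσ0 (fun h => hnot (by rw [h]; exact v.asIdeal.zero_mem)),
      expo_eq_zero v hE₁v, expo_eq_zero v hnot, zero_add, add_zero] at h
    exact h
  · refine expo_eq_zero v fun h => intCast_not_mem v hq hv ha ?_
    exact (Submodule.add_mem_iff_left _ (v.asIdeal.mul_mem_left _ hσv)).mp h

/-- At a ramified prime an element and its conjugate have the same exponent. -/
theorem expo_conj (v : HeightOneSpectrum (𝓞 K)) {q : ℕ} (hq : q.Prime)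
    (hv : (q : 𝓞 K) ∈ v.asIdeal) {E : ℤ} (h1 : (q : ℤ) ∣ E) (h2 : ¬ (q : ℤ) ^ 2 ∣ E)
    {σ : 𝓞 K} (hσ : σ ^ 2 = (E : 𝓞 K)) {A B : ℤ}
    (hne : (A : 𝓞 K) + (B : 𝓞 K) * σ ≠ 0) (hne' : (A : 𝓞 K) - (B : 𝓞 K) * σ ≠ 0) :
    expo v ((A : 𝓞 K) + (B : 𝓞 K) * σ) = expo v ((A : 𝓞 K) - (B : 𝓞 K) * σ) := by
  have hg : 0 < Int.gcd A B := by
    refine Nat.pos_of_ne_zero fun h0 => hne ?_
    obtain ⟨rfl, rfl⟩ := Int.gcd_eq_zero_iff.mp h0
    simp
  obtain ⟨a, b, hco, hA, hB⟩ := Int.exists_gcd_one hg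
  generalize Int.gcd A B = g at hA hB hg
  subst hA hB
  have hab : ∀ c : ℤ, (c = b ∨ c = -b) → ¬ ((q : ℤ) ∣ a ∧ (q : ℤ) ∣ c) := by
    rintro c hc ⟨ha, hb⟩
    have hb' : (q : ℤ) ∣ b := by rcases hc with rfl | rfl <;> simpa using hb
    have := Int.natCast_dvd_natCast.mp (Int.dvd_coe_gcd ha hb')
    rw [hco] at this
    exact hq.one_lt.ne' (Nat.dvd_one.mp this)
  have hg0 : ((g : ℤ) : 𝓞 K) ≠ 0 := Int.cast_ne_zero.mpr (by omega)
  have e1 : (((a * g : ℤ)) : 𝓞 K) + (((b * g : ℤ)) : 𝓞 K) * σ =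
      ((g : ℤ) : 𝓞 K) * ((a : 𝓞 K) + (b : 𝓞 K) * σ) := by push_cast; ring
  have e2 : (((a * g : ℤ)) : 𝓞 K) - (((b * g : ℤ)) : 𝓞 K) * σ =
      ((g : ℤ) : 𝓞 K) * ((a : 𝓞 K) + ((-b : ℤ) : 𝓞 K) * σ) := by push_cast; ring
  have n1 := right_ne_zero_of_mul (e1 ▸ hne)
  have n2 := right_ne_zero_of_mul (e2 ▸ hne')
  rw [e1, e2, expo_mul v hg0 n1, expo_mul v hg0 n2,
    expo_ramified v hq hv h1 h2 hσ (hab b (Or.inl rfl)) n1,
    expo_ramified v hq hv h1 h2 hσ (hab (-b) (Or.inr rfl)) n2]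

variable {S P : Finset ℕ}

/-- **The descent element is admissible**, whatever the ramified primes of the resolvent. -/
theorem admissible_cond {L : Type} [Field L] [NumberField L] {m : ℤ} (R : Resolvent L P m)
    (hP : ∀ p ∈ P, p.Prime → p ∈ withSix S ∨ ((p : ℤ) ∣ m ∧ ¬ (p : ℤ) ^ 2 ∣ m))
    {σ : 𝓞 K} (hσ : σ ^ 2 = (m : 𝓞 K)) {T : Finset (HeightOneSpectrum (𝓞 K))}
    (hT : ∀ v ∉ T, ((6 * ∏ q ∈ S, (q : ℤ) : ℤ) : 𝓞 K) ∉ v.asIdeal) :
    Admissible T (4 * (R.T : 𝓞 K) + 12 * ((R.g : 𝓞 K) * R.a) * σ) := by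
  set Z := 4 * (R.T : 𝓞 K) + 12 * ((R.g : 𝓞 K) * R.a) * σ
  set Z' := 4 * (R.T : 𝓞 K) - 12 * ((R.g : 𝓞 K) * R.a) * σ
  have e : Z * Z' = (4 * (R.h : 𝓞 K)) ^ 3 := by
    have := congrArg (Int.cast : ℤ → 𝓞 K) R.norm_eq
    push_cast at this
    simp only [Z, Z']
    linear_combination 16 * this - 144 * ((R.g : 𝓞 K) * R.a) ^ 2 * hσ
  have hX : 4 * (R.h : 𝓞 K) ≠ 0 := mul_ne_zero (by norm_num) (Int.cast_ne_zero.mpr R.hh)
  have hne : Z * Z' ≠ 0 := e ▸ pow_ne_zero 3 hX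
  refine ⟨left_ne_zero_of_mul hne, fun v hv => ?_⟩
  have hsum := congrArg (expo v) e
  rw [expo_mul v (left_ne_zero_of_mul hne) (right_ne_zero_of_mul hne), pow_succ, pow_succ, pow_one,
    expo_mul v (mul_ne_zero hX hX) hX, expo_mul v hX hX] at hsum
  by_cases hram : ∃ q : ℕ, q.Prime ∧ (q : ℤ) ∣ m ∧ ¬ (q : ℤ) ^ 2 ∣ m ∧ (q : 𝓞 K) ∈ v.asIdeal
  · obtain ⟨q, hq, h1, h2, hqv⟩ := hram
    have ez : Z = ((4 * R.T : ℤ) : 𝓞 K) + ((12 * (R.g * R.a) : ℤ) : 𝓞 K) * σ := by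
      push_cast; rfl
    have ez' : Z' = ((4 * R.T : ℤ) : 𝓞 K) - ((12 * (R.g * R.a) : ℤ) : 𝓞 K) * σ := by
      push_cast; rfl
    have h := expo_conj v hq hqv h1 h2 hσ (ez ▸ left_ne_zero_of_mul hne)
      (ez' ▸ right_ne_zero_of_mul hne)
    rw [← ez, ← ez'] at h
    omega
  push Not at hram
  by_cases hz : expo v Z = 0
  · rw [hz]; exact dvd_zero 3
  have hv6 := hT v hv
  have hint : ∀ n : ℤ, n ≠ 0 → (∀ p : ℕ, p.Prime → (p : ℤ) ∣ n → p ∈ P) →
      (n : 𝓞 K) ∉ v.asIdeal := fun n hn h hmem => by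
    obtain ⟨p, hp, hpn, hpv⟩ := exists_prime_mem v hn hmem
    rcases hP p (h p hp hpn) hp with h6 | ⟨hm1, hm2⟩
    · exact natCast_not_mem v hv6 h6 hpv
    · exact hram p hp hm1 hm2 hpv
  have hZ' : expo v Z' = 0 := by
    by_contra h'
    have m1 := (expo_ne_zero_iff v (left_ne_zero_of_mul hne)).mp hz
    have m2 := (expo_ne_zero_iff v (right_ne_zero_of_mul hne)).mp h'
    have h2 : (2 : 𝓞 K) ∉ v.asIdeal := by
      simpa using natCast_not_mem v hv6 (show 2 ∈ withSix S by simp)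
    have h3 : (3 : 𝓞 K) ∉ v.asIdeal := by
      simpa using natCast_not_mem v hv6 (show 3 ∈ withSix S by simp)
    have mh : (R.h : 𝓞 K) ∈ v.asIdeal := by
      have hm := v.isPrime.mem_of_pow_mem 3 (e ▸ v.asIdeal.mul_mem_right Z' m1)
      rw [show 4 * (R.h : 𝓞 K) = 2 * (2 * (R.h : 𝓞 K)) by ring] at hm
      exact (v.isPrime.mem_or_mem ((v.isPrime.mem_or_mem hm).resolve_left h2)).resolve_left h2
    have hd : (2 : 𝓞 K) * (2 * (2 * (3 * ((R.g : 𝓞 K) * ((R.a : 𝓞 K) * σ))))) ∈ v.asIdeal := by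
      have := v.asIdeal.sub_mem m1 m2
      rwa [show Z - Z' = 2 * (2 * (2 * (3 * ((R.g : 𝓞 K) * ((R.a : 𝓞 K) * σ))))) by
        simp only [Z, Z']; ring] at this
    have h' := fun {x : 𝓞 K} (hx : x ∉ v.asIdeal) {y : 𝓞 K} (hxy : x * y ∈ v.asIdeal) =>
      (v.isPrime.mem_or_mem hxy).resolve_left hx
    have hm' := hint m R.primes_m.1 R.primes_m.2
    have ma : (R.a : 𝓞 K) ∈ v.asIdeal := by
      rcases v.isPrime.mem_or_mem
        (h' (hint _ R.primes_g.1 R.primes_g.2) (h' h3 (h' h2 (h' h2 (h' h2 hd))))) with h | h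
      · exact h
      · exact absurd (hσ ▸ v.asIdeal.pow_mem_of_mem h 2 two_pos) hm'
    have hgcd : ((Int.gcd R.a R.h : ℤ) : 𝓞 K) ∈ v.asIdeal := by
      rw [Int.gcd_eq_gcd_ab, Int.cast_add, Int.cast_mul, Int.cast_mul]
      exact v.asIdeal.add_mem (v.asIdeal.mul_mem_right _ ma) (v.asIdeal.mul_mem_right _ mh)
    exact hint _ (Int.natCast_ne_zero.mpr (fun h0 => R.hh (Int.gcd_eq_zero_iff.mp h0).2))
      (fun p hp hpd => R.primes_gcd p hp (hpd.trans (Int.gcd_dvd_left _ _))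
        (hpd.trans (Int.gcd_dvd_right _ _))) hgcd
  rw [hZ', add_zero] at hsum
  omega

variable {ι : Type*} {L : ι → Type} [∀ i, Field (L i)] [∀ i, NumberField (L i)]

/-- **The fields of one square class against the three-torsion**, sharpened. -/
theorem fields_le_cond (hS : ∀ p ∈ S, p.Prime) (hK : finrank ℚ K ≤ 2) {m : ℤ} (s : K)
    (hs : s ^ 2 = ((m : ℚ) : K)) (hlift : CubeLift (toField s hs))
    (R : ∀ i, Resolvent (L i) P m)
    (hP : ∀ p ∈ P, p.Prime → p ∈ withSix S ∨ ((p : ℤ) ∣ m ∧ ¬ (p : ℤ) ^ 2 ∣ m))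
    (h3 : ∀ i, finrank ℚ (L i) = 3) (hne : ∀ i j, Nonempty (L i ≃+* L j) → i = j) :
    Finite ι ∧ Nat.card ι ≤
      9 * 81 ^ (S.card + 2) * Nat.card {c : ClassGroup (𝓞 K) // c ^ 3 = 1} := by
  set k : ℤ := ∏ q ∈ S, (q : ℤ) with hkdef
  have hk : k ≠ 0 := prod_ne_zero_iff.mpr fun p hp => Int.natCast_ne_zero.mpr (hS p hp).ne_zero
  obtain ⟨T, hTc, hT⟩ := exists_support (K := K) hK hk
  have hsub : supportPrimes k ⊆ withSix S := supportPrimes_subset hk fun p hp h => by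
    obtain ⟨q, hq, hpq⟩ := (Prime.dvd_finsetProd_iff (Nat.prime_iff_prime_int.1 hp) _).mp h
    rw [(Nat.prime_dvd_prime_iff_eq hp (hS q hq)).mp (Int.natCast_dvd_natCast.mp hpq)]
    exact mem_union_left _ hq
  have hTc' : T.card ≤ 4 * (S.card + 2) :=
    hTc.trans (Nat.mul_le_mul_left _ ((card_le_card hsub).trans (card_withSix_le S)))
  have hsm : s ^ 2 = (m : K) := by rw [hs]; simp
  have hsint : IsIntegral ℤ s :=
    IsIntegral.of_pow two_pos (hsm ▸ (isIntegral_algebraMap (R := ℤ) (x := m)))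
  set σ : 𝓞 K := ⟨s, hsint⟩
  have hσ : σ ^ 2 = (m : 𝓞 K) := RingOfIntegers.ext (by simpa [σ] using hsm)
  let z : ι → 𝓞 K := fun i =>
    4 * ((R i).T : 𝓞 K) + 12 * (((R i).g : 𝓞 K) * (R i).a) * σ
  have hz : ∀ i, (z i : K) = toField s hs (R i).val := fun i => by
    rw [toField_apply,
      show (R i).val.re = 4 * ((R i).T : ℚ) by simp [Resolvent.val],
      show (R i).val.im = 12 * (((R i).g : ℚ) * (R i).a) by simp [Resolvent.val]]
    push_cast
    simp [z, σ, map_ofNat]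
  obtain ⟨hfin, hcard⟩ := card_classes_le_three T z
    (fun i => admissible_cond (R i) hP hσ hT) (by
    rintro i j ⟨a, b, ha, hb, hab⟩
    refine hne i j ?_
    have e : toField s hs (R i).val * (a : K) ^ 3 = toField s hs (R j).val * (b : K) ^ 3 := by
      rw [← hz, ← hz]
      exact_mod_cast congrArg (fun r : 𝓞 K => (r : K)) hab
    have ha' : (a : K) ≠ 0 := by exact_mod_cast ha
    have hb' : (b : K) ≠ 0 := by exact_mod_cast hb
    set C : SqAlg (m : ℚ) := ⟨(R j).val.re, -(R j).val.im⟩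
    have hC : (R j).val * C = ratS (m : ℚ) ((4 * ((R j).h : ℚ)) ^ 3) := by
      rw [mul_conj, (R j).sqNorm_val]
    have hh : (4 * ((R j).h : ℚ)) ≠ 0 := mul_ne_zero (by norm_num) (Int.cast_ne_zero.mpr (R j).hh)
    have hgC : toField s hs (R j).val * toField s hs C = (((4 * ((R j).h : ℚ)) : ℚ) : K) ^ 3 := by
      rw [← map_mul, hC]
      exact ((toField s hs).commutes _).trans (by simp)
    obtain ⟨w, hw⟩ := hlift ((R i).val * C)
      ⟨((4 * ((R j).h : ℚ) : ℚ) : K) * b / a,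
        div_ne_zero (mul_ne_zero (Rat.cast_ne_zero.mpr hh) hb') ha', by
          rw [map_mul, div_pow, eq_div_iff (pow_ne_zero 3 ha'), mul_pow, ← hgC]
          linear_combination toField s hs C * e⟩
      ⟨4 * ((R i).h : ℚ) * (4 * ((R j).h : ℚ)), by
        rw [sqNorm_mul, (R i).sqNorm_val, show sqNorm C = sqNorm (R j).val by simp [C, sqNorm],
          (R j).sqNorm_val]
        ring⟩
    refine CubicFieldsBound.nonempty_ringEquiv (R j) (R i) (h3 j) (h3 i)
      (w * ratS (m : ℚ) (4 * ((R j).h : ℚ))⁻¹) ?_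
    rw [mul_pow, ← hw, ← map_pow, inv_pow]
    calc (R i).val = (R i).val * (ratS (m : ℚ) ((4 * ((R j).h : ℚ)) ^ 3) *
          ratS (m : ℚ) ((4 * ((R j).h : ℚ)) ^ 3)⁻¹) := by
          rw [← map_mul, mul_inv_cancel₀ (pow_ne_zero 3 hh), map_one, mul_one]
      _ = _ := by rw [← hC]; ring)
  refine ⟨hfin, hcard.trans ?_⟩
  have hr : Units.rank K + 1 ≤ 2 := by
    have h1 := InfinitePlace.card_add_two_mul_card_eq_rank K
    have h2 := InfinitePlace.card_eq_nrRealPlaces_add_nrComplexPlaces (K := K)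
    rw [Units.rank]
    omega
  calc 3 ^ T.card * Nat.card {c : ClassGroup (𝓞 K) // c ^ 3 = 1} * 3 ^ (Units.rank K + 1)
      ≤ 3 ^ (4 * (S.card + 2)) * Nat.card {c : ClassGroup (𝓞 K) // c ^ 3 = 1} * 3 ^ 2 :=
        Nat.mul_le_mul (Nat.mul_le_mul_right _ (Nat.pow_le_pow_right (by norm_num) hTc'))
          (Nat.pow_le_pow_right (by norm_num) hr)
    _ = _ := by rw [pow_mul]; ring

/-- The maximal classes with discriminant `c² D` and conductor `c`. -/
def fibre (c : ℕ) (D : ℤ) : Set (Set CubicForm) :=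
  {x | ∃ f ∈ maxForms, f.Anisotropic ∧ f.disc = (c : ℤ) ^ 2 * D ∧ cond f = c ∧ x = classSet f}

/-- Fields that share discriminant, conductor and resolvent. -/
theorem fields_of_cond {c : ℕ} (hc : 0 < c) {D : ℤ} (hD : DiscGood D) {ι : Type}
    (L : ι → Type) [∀ i, Field (L i)] [∀ i, NumberField (L i)]
    (h3 : ∀ i, finrank ℚ (L i) = 3) (hd : ∀ i, discr (L i) = (c : ℤ) ^ 2 * D)
    (hne : ∀ i j, Nonempty (L i ≃+* L j) → i = j) :
    Finite ι ∧ Nat.card ι ≤ 9 * 81 ^ (c.primeFactors.card + 2) * h3Of (twin D) := by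
  set S := c.primeFactors
  have hS : ∀ p ∈ S, p.Prime := fun p hp => Nat.prime_of_mem_primeFactors hp
  set P := withSix ((c : ℤ) ^ 2 * D).natAbs.primeFactors
  have hD0 : D ≠ 0 := fun h => hD.2 2 Nat.prime_two (by simp [DiscBad, h])
  have hc0 : (c : ℤ) ^ 2 * D ≠ 0 := mul_ne_zero (pow_ne_zero 2 (by omega)) hD0
  obtain ⟨g, hg⟩ := twin_relation D c
  choose R _ using fun i => exists_resolvent (L i) (h3 i) (P := P) (by simp [P])
    (fun p hp h => mem_union_left _ (Nat.mem_primeFactors.mpr ⟨hp,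
      Int.natCast_dvd.mp (hd i ▸ h), Int.natAbs_ne_zero.mpr hc0⟩))
    (g := g) (m := twin D) (by rw [hd i]; exact hg)
  have hP : ∀ p ∈ P, p.Prime →
      p ∈ withSix S ∨ ((p : ℤ) ∣ twin D ∧ ¬ (p : ℤ) ^ 2 ∣ twin D) := by
    intro p hp hpp
    by_cases h6 : p ∈ withSix S
    · exact Or.inl h6
    rcases mem_union.mp hp with h | h
    · have hPZ := Nat.prime_iff_prime_int.mp hpp
      have hpd : (p : ℤ) ∣ D := by
        refine (hPZ.dvd_or_dvd (Int.natCast_dvd.mpr (Nat.dvd_of_mem_primeFactors h))).resolve_left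
          fun h' => h6 (mem_union_left _ (Nat.mem_primeFactors.mpr
            ⟨hpp, Int.natCast_dvd_natCast.mp (hPZ.dvd_of_dvd_pow h'), hc.ne'⟩))
      have hp2 : p ≠ 2 := fun e => h6 (by simp [e])
      have hp3 : p ≠ 3 := fun e => h6 (by simp [e])
      refine Or.inr ⟨?_, fun h' => (twin_good hD).2 p hpp ?_⟩
      · rw [twin]
        split_ifs with h3'
        · obtain ⟨k, rfl⟩ := h3'
          rw [Int.mul_ediv_cancel_left _ (by norm_num : (3 : ℤ) ≠ 0)]
          exact ((hPZ.dvd_or_dvd hpd).resolve_left fun e => hp3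
            ((Nat.prime_dvd_prime_iff_eq hpp Nat.prime_three).mp (by exact_mod_cast e))).neg_right
        · exact hpd.mul_left _
      · rw [DiscBad, if_neg hp2]; exact h'
    · exact absurd (mem_union_right _ h) h6
  by_cases hE : FundDisc (twin D)
  · obtain ⟨K, _, _, hK, hdK, hcl⟩ := h3Of_spec hE
    obtain ⟨Q⟩ := exists_qdata hK
    have hs : (algebraMap (𝓞 K) K Q.sqrtD) ^ 2 = ((twin D : ℚ) : K) := by
      rw [← map_pow, pow_two, Q.sqrtD_sq, Q.disc_eq_discr, hdK, map_intCast]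
      simp
    have hns : ¬ IsSquare (twin D : ℚ) := fun h =>
      hE.not_isSquare (Rat.isSquare_intCast_iff.mp h)
    rw [← hcl]
    exact fields_le_cond hS hK.le _ hs (cubeLift_quadratic hK hns _ hs) R hP h3 hne
  · have h1 : twin D = 1 := by
      by_contra h
      exact hE ⟨h, twin_good hD⟩
    have hs : ((1 : ℚ)) ^ 2 = ((twin D : ℚ)) := by rw [h1]; norm_num
    obtain ⟨hfin, h⟩ := fields_le_cond (K := ℚ) hS (by simp) (1 : ℚ) (by simpa using hs)
      (cubeLift_rat one_ne_zero hs) R hP h3 hne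
    refine ⟨hfin, h.trans ?_⟩
    have := card_three_torsion_le (K := ℚ)
    rw [Rat.classNumber_eq] at this
    rw [h3Of_not_fund hE]
    exact Nat.mul_le_mul_left _ this

/-- **The classes of given conductor and resolvent.** -/
theorem fibre_bound {c : ℕ} (hc : 0 < c) {D : ℤ} (hD : DiscGood D) :
    (fibre c D).Finite ∧
      (fibre c D).ncard ≤ 9 * 81 ^ (c.primeFactors.card + 2) * h3Of (twin D) := by
  choose f hf1 hf2 hf3 hf4 hf5 using fun x : fibre c D => x.2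
  choose L hF hN hdeg he using fun x => exists_field_of_form (hf2 x) (hf1 x)
  obtain ⟨hfin, h⟩ := fields_of_cond hc hD L hdeg (fun x => by
    obtain ⟨e⟩ := he x
    obtain ⟨-, -, hd⟩ := maxForms_of_ringOfIntegers e
    rw [← hd, hf3 x]) (fun x y hxy => by
    obtain ⟨e⟩ := he x
    obtain ⟨e'⟩ := he y
    exact Subtype.ext (by rw [hf5 x, hf5 y]; exact (fieldEquiv_iff e e').mp hxy))
  exact ⟨Set.finite_coe_iff.mp hfin, by rwa [← Nat.card_coe_set_eq]⟩

end FA.SexticCount
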