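import Fermat.Agent.ArtinFE.Completed
import Fermat.Agent.ArtinL.Biquadratic
import Mathlib.NumberTheory.NumberField.Discriminant.Basic
import Mathlib.GroupTheory.Perm.Sign
import Mathlib.GroupTheory.GroupAction.Defs

/-!
# Brauer relations and discriminants

The functional equations turn a Brauer relation into a relation between the discriminants of the
fixed fields. For the symmetric group on three points: `d_L = d_K² d_k`.
-/

set_option autoImplicit false
set_option linter.style.haveILetI false
set_option linter.unusedSectionVars false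

noncomputable section

open NumberField NumberField.InfinitePlace Module Finset Complex FA.CharacterTheory FA.ArtinL
  FA.ArtinFE
open scoped Classical

namespace FA.SexticCount

section relation

variable {K L : Type*} [Field K] [NumberField K] [Field L] [NumberField L] [Algebra K L]
  [IsGalois K L] {ι : Type*} [Fintype ι] {H : ι → Subgroup (L ≃ₐ[K] L)} {m : ι → ℤ}

/-- **A Brauer relation holds between the discriminants.** -/
theorem prod_discr_eq_one (h : IsBrauerRelation H m) :
    ∏ i, ((discr (IntermediateField.fixedField (H i))).natAbs : ℝ) ^ m i = 1 := by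
  choose Ξ hm hh he using fun i => exists_zeta_completed (IntermediateField.fixedField (H i))
  have hA : ∀ i ∈ (univ : Finset ι),
      (0 : ℝ) < ((discr (IntermediateField.fixedField (H i))).natAbs : ℝ) := fun i _ =>
    Nat.cast_pos.2 (Int.natAbs_pos.2 (discr_ne_zero _))
  refine (params_unique (Finset.prod_pos fun i hi => zpow_pos (hA i hi) (m i)) one_pos
    (a₁ := ∑ i, m i * ((nrRealPlaces (IntermediateField.fixedField (H i)) : ℤ) +
      nrComplexPlaces (IntermediateField.fixedField (H i))))
    (b₁ := ∑ i, m i * (nrComplexPlaces (IntermediateField.fixedField (H i)) : ℤ))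
    (a₂ := 0) (b₂ := 0) (F := fun _ => 1) (F' := fun _ => 1)
    (Λ₁ := fun s => ∏ i, Ξ i s ^ m i) (Λ₁' := fun s => ∏ i, Ξ i s ^ m i)
    (Λ₂ := fun _ => 1) (Λ₂' := fun _ => 1) (W₁ := 1) (W₂ := 1) one_ne_zero one_ne_zero
    (fun _ _ => one_ne_zero)
    (fun x => MeromorphicAt.fun_prod fun i _ => (hm i x).fun_zpow (m i))
    (fun x => MeromorphicAt.fun_prod fun i _ => (hm i x).fun_zpow (m i))
    (fun x => MeromorphicAt.const 1 x) (fun x => MeromorphicAt.const 1 x)
    (fun s hs => ?_) (fun s hs => ?_) (fun s _ => by rw [gamProd_one, one_mul])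
    (fun s _ => by rw [gamProd_one, one_mul]) (fun s => by simp only [he, one_mul])
    fun s => by rw [one_mul]).1
  all_goals
    simp only [hh _ s hs, mul_zpow, prod_mul_distrib, prod_dedekindZeta_eq_one h hs, mul_one]
    exact gamProd_prod univ hA _ _ m (one_pos.trans hs)

end relation

/-- The standard subgroup of order two. -/
def stabTwo : Subgroup (Equiv.Perm (Fin 3)) := MulAction.stabilizer (Equiv.Perm (Fin 3)) (2 : Fin 3)

/-- The alternating subgroup. -/
def altThree : Subgroup (Equiv.Perm (Fin 3)) := MonoidHom.ker Equiv.Perm.sign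

theorem mem_stabTwo {σ : Equiv.Perm (Fin 3)} : σ ∈ stabTwo ↔ σ 2 = 2 := Iff.rfl

theorem mem_altThree {σ : Equiv.Perm (Fin 3)} : σ ∈ altThree ↔ Equiv.Perm.sign σ = 1 := Iff.rfl

theorem s3_table : ∀ y : Equiv.Perm (Fin 3),
    6 * ((univ.filter fun σ => σ * y * σ⁻¹ = 1).card : ℤ)
      - 6 * (univ.filter fun σ => (σ * y * σ⁻¹) (2 : Fin 3) = 2).card
      - 2 * (univ.filter fun σ => Equiv.Perm.sign (σ * y * σ⁻¹) = 1).card
      + 2 * Fintype.card (Equiv.Perm (Fin 3)) = 0 := by
  decide

section sextic

variable {L : Type} [Field L] [NumberField L] [IsGalois ℚ L]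
  (e : (L ≃ₐ[ℚ] L) ≃* Equiv.Perm (Fin 3))

/-- The four subgroups. -/
def s3Family : Fin 4 → Subgroup (L ≃ₐ[ℚ] L) :=
  ![⊥, stabTwo.comap e.toMonoidHom, altThree.comap e.toMonoidHom, ⊤]

/-- Their multiplicities. -/
def s3Coeff : Fin 4 → ℤ := ![1, -2, -1, 2]

theorem induced_comap (S : Subgroup (Equiv.Perm (Fin 3))) (g : L ≃ₐ[ℚ] L) :
    induced (S.comap e.toMonoidHom) (fun _ => (1 : ℂ)) g =
      (Nat.card S : ℂ)⁻¹ * ((univ.filter fun σ => σ * e g * σ⁻¹ ∈ S).card : ℂ) := by
  have hc : Nat.card (S.comap e.toMonoidHom) = Nat.card S :=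
    Nat.card_congr (e.toEquiv.subtypeEquiv fun _ => Iff.rfl)
  simp only [induced, dite_eq_ite, hc]
  rw [← sum_boole (R := ℂ)]
  congr 1
  exact Fintype.sum_equiv e.toEquiv _ _ fun x => by simp

theorem card_stabTwo : Nat.card stabTwo = 2 := by
  rw [Nat.card_eq_fintype_card, Fintype.card_subtype]
  simp only [mem_stabTwo]
  decide

theorem card_altThree : Nat.card altThree = 3 := by
  rw [Nat.card_eq_fintype_card, Fintype.card_subtype]
  simp only [mem_altThree]
  decide

theorem s3_relation : IsBrauerRelation (s3Family e) s3Coeff := by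
  intro g
  have hbot : (⊥ : Subgroup (L ≃ₐ[ℚ] L)) = (⊥ : Subgroup (Equiv.Perm (Fin 3))).comap
      e.toMonoidHom := by ext; simp
  have htop : (⊤ : Subgroup (L ≃ₐ[ℚ] L)) = (⊤ : Subgroup (Equiv.Perm (Fin 3))).comap
      e.toMonoidHom := by ext; simp
  simp only [Fin.sum_univ_four, s3Family, s3Coeff, Matrix.cons_val_zero, Matrix.cons_val_one,
    Matrix.cons_val]
  rw [hbot, htop, induced_comap, induced_comap, induced_comap, induced_comap, card_stabTwo,
    card_altThree, Subgroup.card_bot, Subgroup.card_top, Nat.card_eq_fintype_card]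
  simp only [Subgroup.mem_bot, Subgroup.mem_top, mem_stabTwo, mem_altThree, filter_true,
    card_univ]
  have h := congrArg (fun z : ℤ => (z : ℂ)) (s3_table (e g))
  have h6 : (Fintype.card (Equiv.Perm (Fin 3)) : ℂ) = 6 := by
    simp [Fintype.card_perm, Nat.factorial]
  push_cast at h ⊢
  rw [h6] at h ⊢
  linear_combination h / 6

/-- **The discriminant of an `S₃`-sextic field.** -/
theorem discr_sextic :
    discr L = discr (IntermediateField.fixedField (stabTwo.comap e.toMonoidHom)) ^ 2 *
      discr (IntermediateField.fixedField (altThree.comap e.toMonoidHom)) := by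
  set K := IntermediateField.fixedField (stabTwo.comap e.toMonoidHom)
  set k := IntermediateField.fixedField (altThree.comap e.toMonoidHom)
  have hbot : discr (IntermediateField.fixedField (⊥ : Subgroup (L ≃ₐ[ℚ] L))) = discr L :=
    discr_eq_discr_of_algEquiv _ ((IntermediateField.equivOfEq
      IntermediateField.fixedField_bot).trans IntermediateField.topEquiv)
  have htop : discr (IntermediateField.fixedField (⊤ : Subgroup (L ≃ₐ[ℚ] L))) = 1 :=
    (discr_eq_discr_of_algEquiv _ ((IntermediateField.equivOfEq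
      IsGalois.fixedField_top).trans (IntermediateField.botEquiv ℚ L))).trans Rat.numberField_discr
  have h1 := prod_discr_eq_one (s3_relation e)
  have h2 := sum_nrComplexPlaces_eq_zero (s3_relation e)
  simp only [Fin.prod_univ_four, Fin.sum_univ_four, s3Family, s3Coeff, Matrix.cons_val_zero,
    Matrix.cons_val_one, Matrix.cons_val] at h1 h2
  rw [hbot, htop] at h1
  have habs : (discr L).natAbs = (discr K).natAbs ^ 2 * (discr k).natAbs := by
    have hK : ((discr K).natAbs : ℝ) ≠ 0 :=
      Nat.cast_ne_zero.2 (Int.natAbs_ne_zero.2 (discr_ne_zero _))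
    have hk : ((discr k).natAbs : ℝ) ≠ 0 :=
      Nat.cast_ne_zero.2 (Int.natAbs_ne_zero.2 (discr_ne_zero _))
    simp only [Int.natAbs_one, Nat.cast_one, zpow_neg,
      zpow_ofNat] at h1
    field_simp at h1
    rw [div_eq_one_iff_eq (mul_ne_zero (pow_ne_zero 2 hK) hk)] at h1
    exact_mod_cast h1
  have hpar : nrComplexPlaces (IntermediateField.fixedField (⊥ : Subgroup (L ≃ₐ[ℚ] L))) % 2 =
      nrComplexPlaces k % 2 := by
    simp only [k]
    omega
  have hsign : (discr L).sign = (discr k).sign := by
    rw [← hbot, sign_discr, sign_discr]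
    rw [← Nat.mod_add_div (nrComplexPlaces
        (IntermediateField.fixedField (⊥ : Subgroup (L ≃ₐ[ℚ] L)))) 2,
      ← Nat.mod_add_div (nrComplexPlaces k) 2, pow_add, pow_mul, pow_add, pow_mul]
    rw [hpar]
    norm_num
  calc discr L = (discr L).sign * (discr L).natAbs := (Int.sign_mul_natAbs _).symm
    _ = (discr K).natAbs ^ 2 * ((discr k).sign * (discr k).natAbs) := by
        rw [hsign, habs]; push_cast; ring
    _ = _ := by rw [Int.sign_mul_natAbs, Int.natAbs_sq]

end sextic

end FA.SexticCount

end
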