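import Fermat.Agent.SexticCount.Count
import Fermat.Agent.SexticCount.Discriminant
import Mathlib.FieldTheory.Galois.Basic
import Mathlib.FieldTheory.Normal.Closure
import Mathlib.RingTheory.Discriminant
import Mathlib.Analysis.Complex.Polynomial.Basic

/-!
# Sextic fields with group `S₃` and non-cyclic cubic fields

A cubic field has three embeddings in a Galois field containing it; the determinant of an integral
basis under them is a square root of the discriminant on which an automorphism acts by the sign of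
its permutation.
-/

set_option autoImplicit false
set_option linter.style.haveILetI false
set_option linter.unusedSectionVars false

noncomputable section

open NumberField Module
open FA.Thue FA.DeloneFaddeev FA.CubicFormCount FA.CubicFields FA.ThreeTorsion
open scoped Classical

namespace FA.SexticCount

section perm

variable {L K : Type} [Field L] [NumberField L] [Field K] [NumberField K]
  (ψ : Fin 3 ≃ (K →ₐ[ℚ] L))

/-- The permutation of the three embeddings. -/
def permHom : (L ≃ₐ[ℚ] L) →* Equiv.Perm (Fin 3) where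
  toFun g :=
    (ψ.trans
      { toFun := fun φ => g.toAlgHom.comp φ
        invFun := fun φ => g.symm.toAlgHom.comp φ
        left_inv := fun φ => AlgHom.ext fun x => g.symm_apply_apply (φ x)
        right_inv := fun φ => AlgHom.ext fun x => g.apply_symm_apply (φ x) }).trans ψ.symm
  map_one' := Equiv.ext fun j => by
    simp only [Equiv.trans_apply, Equiv.coe_fn_mk, Equiv.Perm.coe_one, id_eq]
    exact ψ.symm_apply_eq.mpr (AlgHom.ext fun x => rfl)
  map_mul' g h := Equiv.ext fun j => by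
    simp only [Equiv.trans_apply, Equiv.coe_fn_mk, Equiv.Perm.coe_mul, Function.comp_apply,
      Equiv.apply_symm_apply]
    exact congrArg ψ.symm (AlgHom.ext fun x => rfl)

theorem permHom_spec (g : L ≃ₐ[ℚ] L) (j : Fin 3) (x : K) :
    ψ (permHom ψ g j) x = g (ψ j x) := by
  simp [permHom]

/-- **The square root of the discriminant.** -/
theorem exists_sqrt_discr (h3 : finrank ℚ K = 3) :
    ∃ δ : L, δ ^ 2 = (discr K : L) ∧ δ ≠ 0 ∧
      ∀ g : L ≃ₐ[ℚ] L, g δ = ((Equiv.Perm.sign (permHom ψ g) : ℤ) : L) * δ := by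
  set b₀ := integralBasis K
  have hcard : Fintype.card (Module.Free.ChooseBasisIndex ℤ (𝓞 K)) = 3 := by
    rw [← Module.finrank_eq_card_basis b₀, h3]
  set ρ : Module.Free.ChooseBasisIndex ℤ (𝓞 K) ≃ Fin 3 := Fintype.equivFinOfCardEq hcard
  set b : Basis (Fin 3) ℚ K := b₀.reindex ρ
  set M : Matrix (Fin 3) (Fin 3) L := Matrix.of fun i j => ψ j (b i)
  obtain ⟨φ⟩ : Nonempty (L →ₐ[ℚ] ℂ) :=
    ⟨IsAlgClosed.lift (R := ℚ) (M := ℂ) (S := L)⟩
  have hcardK : Fintype.card (K →ₐ[ℚ] ℂ) = 3 := by rw [AlgHom.card ℚ K ℂ, h3]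
  let c : Fin 3 → (K →ₐ[ℚ] ℂ) := fun j => φ.comp (ψ j)
  have hc : Function.Bijective c := (Fintype.bijective_iff_injective_and_card c).mpr
    ⟨fun i j h => ψ.injective (AlgHom.ext fun x => φ.injective (DFunLike.congr_fun h x)),
      by rw [Fintype.card_fin, hcardK]⟩
  have hdisc : φ (M.det ^ 2) = φ (discr K : L) := by
    have h := Algebra.discr_eq_det_embeddingsMatrixReindex_pow_two ℚ ℂ b (Equiv.ofBijective c hc)
    have hb : Algebra.discr ℚ b = (discr K : ℚ) := by
      rw [coe_discr]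
      show Algebra.discr ℚ (b₀.reindex ρ) = _
      rw [Basis.coe_reindex, Algebra.discr_reindex]
    rw [hb, map_intCast] at h
    rw [map_pow, map_intCast, h, AlgHom.map_det]
    congr 2
  have hsq : M.det ^ 2 = (discr K : L) := φ.injective hdisc
  refine ⟨M.det, hsq, fun h0 => ?_, fun g => ?_⟩
  · rw [h0, zero_pow two_ne_zero] at hsq
    exact Int.cast_ne_zero.mpr (discr_ne_zero K) hsq.symm
  · have e : g.toRingEquiv.toRingHom.mapMatrix M = M.submatrix id (permHom ψ g) := by
      ext i j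
      simp [M, permHom_spec]
    have h := RingHom.map_det g.toRingEquiv.toRingHom M
    rw [e, Matrix.det_permute'] at h
    exact h

/-- An automorphism fixing all three embeddings fixes the field they generate. -/
theorem permHom_eq_one {g : L ≃ₐ[ℚ] L} (h : permHom ψ g = 1) (χ : K →ₐ[ℚ] L) (x : K) :
    g (χ x) = χ x := by
  obtain ⟨j, rfl⟩ := ψ.surjective χ
  rw [← permHom_spec, h, Equiv.Perm.one_apply]

end perm

section galois

variable {L K : Type} [Field L] [NumberField L] [IsGalois ℚ L] [Field K] [NumberField K]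

theorem exists_embeddings (h3 : finrank ℚ K = 3) (ι : K →ₐ[ℚ] L) :
    Nonempty (Fin 3 ≃ (K →ₐ[ℚ] L)) := by
  set pb := Field.powerBasisOfFiniteOfSeparable ℚ K
  have hs : ((minpoly ℚ pb.gen).map (algebraMap ℚ L)).Splits := by
    rw [← minpoly.algHom_eq ι ι.injective pb.gen]
    exact Normal.splits (inferInstance : Normal ℚ L) (ι pb.gen)
  have h := AlgHom.natCard_of_powerBasis pb (Algebra.IsSeparable.isSeparable ℚ pb.gen) hs
  rw [← pb.finrank, h3] at h
  haveI : Finite (K →ₐ[ℚ] L) := Nat.finite_of_card_ne_zero (by omega)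
  exact ⟨(Finite.equivFinOfCardEq h).symm⟩

theorem fixed_isSquare {d : ℤ} {δ : L} (hsq : δ ^ 2 = (d : L))
    (h : ∀ g : L ≃ₐ[ℚ] L, g δ = δ) : IsSquare d := by
  obtain ⟨q, hq⟩ := IntermediateField.mem_bot.mp ((IsGalois.mem_bot_iff_fixed δ).mpr h)
  refine Rat.isSquare_intCast_iff.mp ⟨q, ?_⟩
  refine (algebraMap ℚ L).injective ?_
  rw [map_mul, hq, map_intCast, ← hsq, pow_two]

end galois

theorem perm_table : ∀ u : Equiv.Perm (Fin 3), u * u = 1 → u ≠ 1 →
    (∀ w : Equiv.Perm (Fin 3),
      (∀ σ : Equiv.Perm (Fin 3), σ * w * σ⁻¹ = 1 ∨ σ * w * σ⁻¹ = u) → w = 1) ∧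
    ∃ σ : Equiv.Perm (Fin 3), ∀ w : Equiv.Perm (Fin 3), w 2 = 2 → σ * w * σ⁻¹ = 1 ∨
      σ * w * σ⁻¹ = u := by
  decide

theorem sign_one_cube : ∀ σ : Equiv.Perm (Fin 3), Equiv.Perm.sign σ = 1 → σ ^ 3 = 1 := by
  decide

section sextic

variable {L : Type} [Field L] [NumberField L] [IsGalois ℚ L]
  (e : (L ≃ₐ[ℚ] L) ≃* Equiv.Perm (Fin 3))

include e in
theorem finrank_sextic : finrank ℚ L = 6 := by
  rw [← IsGalois.card_aut_eq_finrank, Nat.card_congr e.toEquiv, Nat.card_eq_fintype_card,
    Fintype.card_perm, Fintype.card_fin]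
  rfl

theorem finrank_fixed_comap (S : Subgroup (Equiv.Perm (Fin 3))) {d : ℕ}
    (h : Nat.card S * d = 6) :
    finrank ℚ (IntermediateField.fixedField (S.comap e.toMonoidHom)) = d := by
  have h1 := IntermediateField.finrank_fixedField_eq_card (S.comap e.toMonoidHom)
  have hc : Nat.card (S.comap e.toMonoidHom) = Nat.card S :=
    Nat.card_congr (e.toEquiv.subtypeEquiv fun _ => Iff.rfl)
  have h2 := Module.finrank_mul_finrank ℚ (IntermediateField.fixedField (S.comap e.toMonoidHom)) L
  rw [h1, hc, finrank_sextic e, ← h, mul_comm (Nat.card S)] at h2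
  exact Nat.eq_of_mul_eq_mul_right Nat.card_pos h2

variable {K : Type} [Field K] [NumberField K]

include e in
theorem exists_involution (h3 : finrank ℚ K = 3) (ι : K →ₐ[ℚ] L) :
    ∃ u : Equiv.Perm (Fin 3), u * u = 1 ∧ u ≠ 1 ∧
      ∀ g : L ≃ₐ[ℚ] L, (∀ x, g (ι x) = ι x) ↔ e g = 1 ∨ e g = u := by
  set E := ι.fieldRange
  have hE : finrank ℚ E = 3 := by
    rw [← h3]; exact (AlgEquiv.ofInjectiveField ι).toLinearEquiv.finrank_eq.symm
  have h2 : Nat.card E.fixingSubgroup = 2 := by
    rw [IsGalois.card_fixingSubgroup_eq_finrank]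
    have := Module.finrank_mul_finrank ℚ E L
    rw [hE, finrank_sextic e] at this
    omega
  obtain ⟨a, ha, hu⟩ := (Nat.card_eq_two_iff' (1 : E.fixingSubgroup)).1 h2
  have hall : ∀ x : E.fixingSubgroup, x = 1 ∨ x = a := fun x =>
    (em (x = 1)).imp_right (hu x)
  have hsq : a * a = 1 := (hall (a * a)).resolve_right fun h => ha (by simpa using h)
  refine ⟨e a.1, ?_, fun h => ha (Subtype.ext (e.injective (h.trans (map_one e).symm))),
    fun g => ⟨fun hg => ?_, fun hg => ?_⟩⟩
  · rw [← map_mul, ← Subgroup.coe_mul, hsq, Subgroup.coe_one, map_one]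
  · have hgm : g ∈ E.fixingSubgroup := fun y => by
      obtain ⟨x, hx⟩ := y.2
      show g (y : L) = y
      rw [← hx]
      exact hg x
    rcases hall ⟨g, hgm⟩ with h | h
    · exact Or.inl (by rw [show g = 1 from congrArg Subtype.val h, map_one])
    · exact Or.inr (congrArg e (congrArg Subtype.val h))
  · have hgm : g ∈ E.fixingSubgroup := by
      rcases hg with h | h
      · rw [show g = 1 from e.injective (h.trans (map_one e).symm)]; exact one_mem _
      · rw [show g = a.1 from e.injective h]; exact a.2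
    exact fun x => hgm ⟨ι x, ⟨x, rfl⟩⟩

/-- **The cubic subfields are conjugate.** -/
theorem cubic_iso (h3 : finrank ℚ K = 3) (ι : K →ₐ[ℚ] L) :
    Nonempty (K ≃ₐ[ℚ] IntermediateField.fixedField (stabTwo.comap e.toMonoidHom)) := by
  obtain ⟨u, hu2, hu1, hu⟩ := exists_involution e h3 ι
  obtain ⟨-, σ, hσ⟩ := perm_table u hu2 hu1
  set F := IntermediateField.fixedField (stabTwo.comap e.toMonoidHom)
  let χ : K →ₐ[ℚ] L := (e.symm σ).symm.toAlgHom.comp ι
  have hmem : ∀ x, χ x ∈ F := fun x => by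
    rintro ⟨g, hg⟩
    show g ((e.symm σ).symm (ι x)) = (e.symm σ).symm (ι x)
    have h := (hu (e.symm σ * g * (e.symm σ)⁻¹)).mpr (by
      simpa using hσ (e g) hg) x
    exact (AlgEquiv.eq_symm_apply _).mpr (by simpa [AlgEquiv.mul_apply, AlgEquiv.aut_inv] using h)
  let χ' : K →ₐ[ℚ] F := χ.codRestrict F.toSubalgebra hmem
  have hinj : Function.Injective χ' := χ'.toRingHom.injective
  have hF : finrank ℚ F = 3 := finrank_fixed_comap e stabTwo (by rw [card_stabTwo])
  exact ⟨AlgEquiv.ofBijective χ' ⟨hinj,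
    (LinearMap.injective_iff_surjective_of_finrank_eq_finrank (f := χ'.toLinearMap)
      (by rw [h3, hF])).mp hinj⟩⟩

include e in
theorem permHom_surjective (h3 : finrank ℚ K = 3) (ψ : Fin 3 ≃ (K →ₐ[ℚ] L)) :
    Function.Surjective (permHom ψ) := by
  obtain ⟨u, hu2, hu1, hu⟩ := exists_involution e h3 (ψ 0)
  have hinj : Function.Injective (permHom ψ) := (injective_iff_map_eq_one _).mpr fun g hg => by
    refine e.injective (((perm_table u hu2 hu1).1 (e g) fun σ => ?_).trans (map_one e).symm)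
    have h := (hu (e.symm σ * g * (e.symm σ)⁻¹)).mp fun x => by
      have := permHom_eq_one ψ hg ((e.symm σ).symm.toAlgHom.comp (ψ 0)) x
      simp only [AlgEquiv.mul_apply, AlgEquiv.aut_inv]
      exact (congrArg (e.symm σ) this).trans ((e.symm σ).apply_symm_apply _)
    simpa using h
  refine ((Fintype.bijective_iff_injective_and_card _).mpr ⟨hinj, ?_⟩).2
  exact Fintype.card_congr e.toEquiv

include e in
/-- **The resolvent of a cubic subfield.** -/
theorem subfield_data (h3 : finrank ℚ K = 3) (ι : K →ₐ[ℚ] L) :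
    ¬ IsSquare (discr K) ∧ ∀ (c : ℕ) (D : ℤ), discr K = (c : ℤ) ^ 2 * D → DiscGood D →
      discr L = discr K ^ 2 * D := by
  obtain ⟨ψ⟩ := exists_embeddings h3 ι
  obtain ⟨δ, hsq, h0, hact⟩ := exists_sqrt_discr ψ h3
  have hns : ¬ IsSquare (discr K) := by
    rintro ⟨r, hr⟩
    obtain ⟨g, hg⟩ := permHom_surjective e h3 ψ (Equiv.swap 0 1)
    have hneg := hact g
    rw [hg, show Equiv.Perm.sign (Equiv.swap (0 : Fin 3) 1) = -1 by decide] at hneg
    have hmul : δ * δ = (r : L) * (r : L) := by rw [← pow_two, hsq, hr]; push_cast; rfl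
    have hfix : g δ = δ := by
      rcases mul_self_eq_mul_self_iff.mp hmul with e1 | e1 <;> rw [e1] <;> simp
    rw [hfix] at hneg
    push_cast at hneg
    rw [neg_one_mul, eq_neg_iff_add_eq_zero, ← two_mul] at hneg
    exact h0 ((mul_eq_zero.mp hneg).resolve_left two_ne_zero)
  refine ⟨hns, fun c D hD hgood => ?_⟩
  set k := IntermediateField.fixedField (altThree.comap e.toMonoidHom)
  have hk2 : finrank ℚ k = 2 := finrank_fixed_comap e altThree (by rw [card_altThree])
  have hδk : δ ∈ k := by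
    rintro ⟨g, hg⟩
    show g δ = δ
    have h1 : g ^ 3 = 1 := e.injective (by rw [map_pow, map_one]; exact sign_one_cube _ hg)
    have h2 : Equiv.Perm.sign (permHom ψ g) = 1 := by
      have h := congrArg Equiv.Perm.sign (congrArg (permHom ψ) h1)
      rw [map_pow, map_pow, map_one, map_one] at h
      rcases Int.units_eq_one_or (Equiv.Perm.sign (permHom ψ g)) with h' | h' <;>
        rw [h'] at h ⊢
      exact absurd h (by decide)
    rw [hact g, h2]
    simp
  have hFD : FundDisc D := by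
    refine ⟨fun h1 => hns ?_, hgood⟩
    rw [hD, h1, mul_one]
    exact ⟨c, sq _⟩
  have hc0 : (c : k) ≠ 0 := by
    refine Nat.cast_ne_zero.mpr fun h => discr_ne_zero K ?_
    rw [hD, h]; simp
  set y : k := ⟨δ, hδk⟩ / (c : k)
  have hy : y * y = ((0 : ℤ) : k) * y + (D : k) := by
    have e1 : (⟨δ, hδk⟩ : k) * ⟨δ, hδk⟩ = (c : k) ^ 2 * (D : k) := by
      refine Subtype.ext ?_
      show δ * δ = _
      rw [← pow_two, hsq, hD]
      push_cast
      rfl
    simp only [y]
    rw [div_mul_div_comm, e1, Int.cast_zero, zero_mul, zero_add, sq,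
      mul_div_cancel_left₀ _ (mul_ne_zero hc0 hc0)]
  obtain ⟨Q⟩ := exists_qdata hk2
  obtain ⟨Y, hY⟩ := mem_integers hy
  have hY2 : Y * Y = (D : 𝓞 k) := RingOfIntegers.coe_injective (by
    rw [map_mul, map_intCast, hY, hy]; simp)
  obtain ⟨e1, e2⟩ := Q.mul_coeff Y Y
  rw [hY2, Q.oc_intCast] at e2
  rw [hY2, Q.rc_intCast] at e1
  set r := Q.rc Y
  set o := Q.oc Y
  have ho : o ≠ 0 := fun ho0 => hFD.not_isSquare ⟨r, by rw [e1, ho0]; ring⟩
  have h2 : 2 * r + Q.t * o = 0 :=
    (mul_eq_zero.mp (by linarith : o * (2 * r + Q.t * o) = 0)).resolve_left ho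
  have hdk : discr k = D := by
    rw [← Q.disc_eq_discr]
    exact (fund_unique (o := o) hFD (fundDisc_of_qdata Q)
      (by rw [QData.disc]; linear_combination 4 * e1 + (2 * r - Q.t * o) * h2)).symm
  obtain ⟨φ⟩ := cubic_iso e h3 ι
  rw [discr_sextic e, ← discr_eq_discr_of_algEquiv K φ]
  simp only [k] at hdk
  rw [hdk]

end sextic

/-- **Every cubic field with non-square discriminant lies in an `S₃`-sextic field.** -/
theorem exists_closure (K : Type) [Field K] [NumberField K] (h3 : finrank ℚ K = 3)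
    (hns : ¬ IsSquare (discr K)) :
    ∃ (L : Type) (_ : Field L) (_ : NumberField L), IsGalois ℚ L ∧
      Nonempty ((L ≃ₐ[ℚ] L) ≃* Equiv.Perm (Fin 3)) ∧ Nonempty (K →ₐ[ℚ] L) := by
  set N : IntermediateField ℚ ℂ := IntermediateField.normalClosure ℚ K ℂ
  haveI : NumberField N := { to_charZero := inferInstance, to_finiteDimensional := inferInstance }
  haveI : IsNormalClosure ℚ K N :=
    Algebra.IsAlgebraic.isNormalClosure_normalClosure fun x => IsAlgClosed.splits _
  haveI : Normal ℚ N := IsNormalClosure.normal (K := K)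
  haveI : IsGalois ℚ N := IsGalois.mk
  let ι : K →ₐ[ℚ] N := (IsAlgClosed.lift (R := ℚ) (M := ℂ) (S := K)).codRestrict N.toSubalgebra
    fun x => AlgHom.fieldRange_le_normalClosure _ ⟨x, rfl⟩
  obtain ⟨ψ⟩ := exists_embeddings h3 ι
  have hinj : Function.Injective (permHom ψ) := (injective_iff_map_eq_one _).mpr fun g hg => by
    set F := IntermediateField.fixedField (Subgroup.zpowers g)
    have hle : N ≤ IntermediateField.lift F := by
      refine normalClosure_le_iff.mpr fun χ y hy => ?_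
      obtain ⟨x, rfl⟩ := hy
      let χ' : K →ₐ[ℚ] N := χ.codRestrict N.toSubalgebra
        fun x => AlgHom.fieldRange_le_normalClosure χ ⟨x, rfl⟩
      refine ⟨χ' x, ?_, rfl⟩
      rintro ⟨h, hh⟩
      obtain ⟨n, rfl⟩ := Subgroup.mem_zpowers_iff.mp hh
      have hn : permHom ψ (g ^ n) = 1 := by rw [map_zpow, hg, one_zpow]
      exact permHom_eq_one ψ hn χ' x
    refine AlgEquiv.ext fun z => ?_
    obtain ⟨w, hw, hwz⟩ := hle z.2
    have hz : z = w := Subtype.ext hwz.symm
    rw [hz, AlgEquiv.one_apply]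
    exact hw ⟨g, Subgroup.mem_zpowers g⟩
  refine ⟨N, inferInstance, inferInstance, inferInstance, ⟨?_⟩, ⟨ι⟩⟩
  refine MulEquiv.ofBijective (permHom ψ) ⟨hinj, ?_⟩
  have h6 : Nat.card (N ≃ₐ[ℚ] N) ∣ 6 := by
    have h := Subgroup.card_dvd_of_injective (permHom ψ) hinj
    rwa [Nat.card_eq_fintype_card (α := Equiv.Perm (Fin 3)), Fintype.card_perm,
      Fintype.card_fin] at h
  have h3d : 3 ∣ Nat.card (N ≃ₐ[ℚ] N) := by
    rw [IsGalois.card_aut_eq_finrank]
    refine ⟨finrank ι.fieldRange N, ?_⟩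
    rw [← h3, (AlgEquiv.ofInjectiveField ι).toLinearEquiv.finrank_eq]
    exact (Module.finrank_mul_finrank ℚ ι.fieldRange N).symm
  have hne : Nat.card (N ≃ₐ[ℚ] N) ≠ 3 := fun h => by
    obtain ⟨δ, hsq, -, hact⟩ := exists_sqrt_discr ψ h3
    refine hns (fixed_isSquare hsq fun g => ?_)
    have h1 : g ^ 3 = 1 := h ▸ pow_card_eq_one'
    have h' := congrArg Equiv.Perm.sign (congrArg (permHom ψ) h1)
    rw [map_pow, map_pow, map_one, map_one] at h'
    rcases Int.units_eq_one_or (Equiv.Perm.sign (permHom ψ g)) with e1 | e1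
    · rw [hact g, e1]; simp
    · rw [e1] at h'; exact absurd h' (by decide)
  have hcard : Nat.card (N ≃ₐ[ℚ] N) = Nat.card (Equiv.Perm (Fin 3)) := by
    rw [Nat.card_eq_fintype_card (α := Equiv.Perm (Fin 3)), Fintype.card_perm, Fintype.card_fin]
    obtain ⟨q, hq⟩ := h3d
    have hq6 : q ∣ 2 := Nat.dvd_of_mul_dvd_mul_left (by norm_num : 0 < 3) (hq ▸ h6)
    rcases (Nat.dvd_prime Nat.prime_two).mp hq6 with rfl | rfl
    · exact absurd hq hne
    · exact hq
  exact ((Nat.bijective_iff_injective_and_card _).mpr ⟨hinj, hcard⟩).2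

end FA.SexticCount

end
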