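import Fermat.Agent.SexticCount.Fields

/-!
# Systems of sextic fields with group `S₃`

The classes of non-square discriminant and weight at most `X ^ (1 / 3)` index the sextic fields
with group `S₃` and `|d| ≤ X`: such a field is the normal closure of each of its cubic subfields.
-/

set_option autoImplicit false
set_option linter.style.haveILetI false

noncomputable section

open NumberField Module Filter
open FA.Thue FA.DeloneFaddeev FA.CubicFormCount FA.CubicFields FA.ThreeTorsion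
open scoped Classical Topology

namespace FA.SexticCount

variable {L : Type} [Field L] [NumberField L] [IsGalois ℚ L]
  (e : (L ≃ₐ[ℚ] L) ≃* Equiv.Perm (Fin 3)) {K : Type} [Field K] [NumberField K]

include e in
/-- An `S₃`-sextic field is the normal closure of each cubic subfield. -/
theorem isNormalClosure_sextic (h3 : finrank ℚ K = 3) (ι : K →ₐ[ℚ] L) :
    IsNormalClosure ℚ K L := by
  obtain ⟨ψ⟩ := exists_embeddings h3 ι
  have hinj : Function.Injective (permHom ψ) :=
    ((Fintype.bijective_iff_surjective_and_card (permHom ψ)).mpr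
      ⟨permHom_surjective e h3 ψ, Fintype.card_congr e.toEquiv⟩).1
  refine Algebra.IsAlgebraic.isNormalClosure_iff.mpr ⟨fun x => ?_, ?_⟩
  · rw [← minpoly.algHom_eq ι ι.injective x]
    exact Normal.splits (inferInstance : Normal ℚ L) (ι x)
  · have hfix : (IntermediateField.normalClosure ℚ K L).fixingSubgroup = ⊥ := by
      refine (Subgroup.eq_bot_iff_forall _).mpr fun g hg => hinj ((Equiv.ext fun j => ?_).trans
        (map_one (permHom ψ)).symm)
      refine ψ.injective (AlgHom.ext fun x => ?_)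
      rw [Equiv.Perm.one_apply, permHom_spec]
      exact hg ⟨ψ j x, AlgHom.fieldRange_le_normalClosure (ψ j) ⟨x, rfl⟩⟩
    rw [← IsGalois.fixedField_fixingSubgroup (IntermediateField.normalClosure ℚ K L), hfix,
      IntermediateField.fixedField_bot]

omit e in
theorem size_iff (ε : Bool) {f : CubicForm} {k : ℕ} {Y : ℝ} (hY : 0 ≤ Y)
    (hd : f.disc = (cond f : ℤ) ^ 2 * (intSign ε * k)) :
    sgn ε * (f.disc : ℝ) ≤ Y * wgt f ↔
      sgn ε * ((f.disc : ℝ) ^ 2 * ((intSign ε : ℝ) * k)) ≤ Y ^ 3 := by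
  have hs : sgn ε * sgn ε = 1 := by cases ε <;> simp [sgn]
  have hc : (0 : ℝ) < cond f := Nat.cast_pos.mpr (cond_pos f)
  have hdr : (f.disc : ℝ) = (cond f : ℝ) ^ 2 * (sgn ε * k) := by
    rw [hd, sgn_eq_intSign]; push_cast; ring
  have e1 : sgn ε * (f.disc : ℝ) = (cond f : ℝ) ^ 2 * k := by
    rw [hdr]; linear_combination (cond f : ℝ) ^ 2 * k * hs
  have e2 : sgn ε * ((f.disc : ℝ) ^ 2 * ((intSign ε : ℝ) * k)) =
      (cond f : ℝ) ^ 4 * (k : ℝ) ^ 3 := by
    rw [hdr, ← sgn_eq_intSign]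
    linear_combination (cond f : ℝ) ^ 4 * (k : ℝ) ^ 3 * (sgn ε * sgn ε + 1) * hs
  rw [e1, e2, wgt]
  have e3 : ((cond f : ℝ) ^ (2 / 3 : ℝ)) ^ 3 = (cond f : ℝ) ^ 2 := by
    rw [← Real.rpow_natCast, ← Real.rpow_mul hc.le, ← Real.rpow_natCast _ 2]; norm_num
  constructor
  · intro h
    have := pow_le_pow_left₀ (by positivity) h 3
    rw [mul_pow Y, e3] at this
    refine le_of_mul_le_mul_right ?_ (pow_pos hc 2)
    linarith
  · intro h
    refine le_of_pow_le_pow_left₀ three_ne_zero (by positivity) ?_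
    rw [mul_pow Y, e3]
    have := mul_le_mul_of_nonneg_right h (pow_nonneg hc.le 2)
    linarith

omit e in
/-- **A complete irredundant system.** -/
theorem exists_sextic_system (ε : Bool) (X : ℝ) :
    ∃ (F : Fin (classesW ε nonCyclic wgt ((max X 0) ^ (1 / 3 : ℝ))).ncard → Type)
      (_ : ∀ i, Field (F i)) (_ : ∀ i, NumberField (F i)),
      (∀ i, IsGalois ℚ (F i) ∧
        Nonempty ((F i ≃ₐ[ℚ] F i) ≃* Equiv.Perm (Fin 3)) ∧
        0 < sgn ε * discr (F i) ∧ sgn ε * discr (F i) ≤ X) ∧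
      (∀ i j, Nonempty (F i ≃+* F j) → i = j) ∧
      ∀ (M : Type) [Field M] [NumberField M], IsGalois ℚ M →
        Nonempty ((M ≃ₐ[ℚ] M) ≃* Equiv.Perm (Fin 3)) → 0 < sgn ε * discr M →
        sgn ε * discr M ≤ X → ∃ i, Nonempty (F i ≃+* M) := by
  set Y := (max X 0) ^ (1 / 3 : ℝ)
  have hY : 0 ≤ Y := by positivity
  have hY3 : Y ^ 3 = max X 0 := by
    simp only [Y]
    rw [← Real.rpow_natCast, ← Real.rpow_mul (le_max_right _ _)]
    norm_num
  have hfin := classesW_finite ε (fun f (hf : f ∈ nonCyclic) => hf.1) Y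
  set S := classesW ε nonCyclic wgt Y
  let idx : Fin S.ncard ≃ ↥hfin.toFinset :=
    (finCongr (Set.ncard_eq_toFinset_card _ hfin)).trans hfin.toFinset.equivFin.symm
  have hch : ∀ i, ∃ f : CubicForm, (f ∈ maxForms ∧ ¬ IsSquare f.disc) ∧ f.Anisotropic ∧
      0 < sgn ε * f.disc ∧ sgn ε * f.disc ≤ Y * wgt f ∧
      (idx i : Set CubicForm) = classSet f := fun i => hfin.mem_toFinset.mp (idx i).2
  choose r hr1 hr2 hr3 hr4 hr5 using hch
  choose K₀ hKF hKN hdeg he using fun i => exists_field_of_form (hr2 i) (hr1 i).1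
  have hdisc : ∀ i, (r i).disc = discr (K₀ i) := fun i => by
    obtain ⟨u⟩ := he i
    exact (maxForms_of_ringOfIntegers u).2.2
  choose F hF hN hG hP hι using fun i =>
    exists_closure (K₀ i) (hdeg i) (by rw [← hdisc i]; exact (hr1 i).2)
  refine ⟨F, hF, hN, fun i => ⟨hG i, hP i, ?_⟩, fun i j h => ?_,
    fun M _ _ _ hM h0 h1 => ?_⟩
  · obtain ⟨u⟩ := hP i
    obtain ⟨v⟩ := hι i
    haveI := hG i
    obtain ⟨k, hk1, hkg, hkd, -⟩ := exists_level (hr1 i).1 (hr3 i) (hr4 i)
    have hdL := (subfield_data u (hdeg i) v).2 _ _ (by rw [← hdisc i]; exact hkd) hkg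
    rw [← hdisc i] at hdL
    have h := (size_iff ε hY hkd).mp (hr4 i)
    rw [hY3] at h
    rw [hdL]
    push_cast
    have hpos : 0 < sgn ε * (((r i).disc : ℝ) ^ 2 * ((intSign ε : ℝ) * k)) := by
      have hd0 : ((r i).disc : ℝ) ≠ 0 := Int.cast_ne_zero.mpr (disc_ne_zero (hr3 i))
      have hss : sgn ε * (intSign ε : ℝ) = 1 := by cases ε <;> simp [sgn, intSign]
      rw [show sgn ε * (((r i).disc : ℝ) ^ 2 * ((intSign ε : ℝ) * k)) =
        ((r i).disc : ℝ) ^ 2 * k by linear_combination ((r i).disc : ℝ) ^ 2 * k * hss]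
      positivity
    refine ⟨hpos, (le_max_iff.mp h).elim id fun h0 => absurd hpos (not_lt.mpr h0)⟩
  · obtain ⟨σ⟩ := h
    obtain ⟨u⟩ := hP j
    obtain ⟨v⟩ := hι i
    obtain ⟨w⟩ := hι j
    haveI := hG j
    obtain ⟨a⟩ := cubic_iso u (hdeg i) (σ.toRingHom.toRatAlgHom.comp v)
    obtain ⟨b⟩ := cubic_iso u (hdeg j) w
    obtain ⟨x⟩ := he i
    obtain ⟨y⟩ := he j
    refine idx.injective (Subtype.ext ?_)
    rw [hr5, hr5]
    exact (fieldEquiv_iff x y).mp ⟨(a.trans b.symm).toRingEquiv⟩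
  · obtain ⟨u⟩ := hM
    set E := IntermediateField.fixedField (stabTwo.comap u.toMonoidHom)
    have hE : finrank ℚ E = 3 := finrank_fixed_comap u stabTwo (by rw [card_stabTwo])
    obtain ⟨f, ⟨x⟩⟩ := exists_form_of_field E hE
    obtain ⟨hm, ha, hd⟩ := maxForms_of_ringOfIntegers x
    obtain ⟨hns, hrel⟩ := subfield_data u hE E.val
    rw [← hd] at hns
    have hd0 : f.disc ≠ 0 := hd ▸ discr_ne_zero _
    obtain ⟨D, hD, hgood⟩ := disc_eq_cond_sq hm hd0
    have hdM := hrel _ _ (hd ▸ hD) hgood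
    rw [← hd] at hdM
    have hsD : 0 < intSign ε * D := by
      rw [sgn_eq_intSign, hdM] at h0
      push_cast at h0
      have h' : (0 : ℝ) < (f.disc : ℝ) ^ 2 * ((intSign ε : ℝ) * (D : ℝ)) := by linarith
      exact_mod_cast pos_of_mul_pos_right h' (by positivity)
    have hk : intSign ε * ((intSign ε * D).toNat : ℤ) = D := by
      rw [Int.toNat_of_nonneg hsD.le, ← mul_assoc]
      rcases intSign_cases ε with h | h <;> simp [h]
    have hD' : f.disc = (cond f : ℤ) ^ 2 * (intSign ε * ((intSign ε * D).toNat : ℤ)) := by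
      rw [hk]; exact hD
    have hpos : 0 < sgn ε * (f.disc : ℝ) := by
      rw [hD, sgn_eq_intSign]
      push_cast
      rw [show (intSign ε : ℝ) * ((cond f : ℝ) ^ 2 * (D : ℝ)) =
        (cond f : ℝ) ^ 2 * ((intSign ε * D : ℤ) : ℝ) by push_cast; ring]
      have : (0 : ℝ) < ((intSign ε * D : ℤ) : ℝ) := Int.cast_pos.mpr hsD
      have := cond_pos f
      positivity
    have hsize : sgn ε * (f.disc : ℝ) ≤ Y * wgt f := by
      refine (size_iff ε hY hD').mpr ?_
      rw [hY3]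
      refine le_trans (le_of_eq ?_) (h1.trans (le_max_left _ _))
      rw [hdM, show (intSign ε : ℝ) * ((intSign ε * D).toNat : ℝ) = (D : ℝ) by
        exact_mod_cast hk]
      push_cast
      rfl
    obtain ⟨i, hi⟩ := idx.surjective ⟨classSet f,
      hfin.mem_toFinset.mpr ⟨f, ⟨hm, hns⟩, ha, hpos, hsize, rfl⟩⟩
    obtain ⟨y⟩ := he i
    obtain ⟨σ⟩ := (fieldEquiv_iff x y).mpr (by rw [← hr5 i, hi])
    obtain ⟨v⟩ := hι i
    obtain ⟨w⟩ := hP i
    haveI := hG i
    haveI := isNormalClosure_sextic u hE E.val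
    haveI := isNormalClosure_sextic w hE (v.comp σ.toRingHom.toRatAlgHom)
    exact ⟨i, ⟨(IsNormalClosure.equiv (F := ℚ) (K := E) (L := F i) (L' := M)).toRingEquiv⟩⟩

omit e in
/-- The count in the variable `X`. -/
theorem tendsto_sextic {P : ℝ} (ε : Bool)
    (h : Tendsto (fun Y : ℝ => ((classesW ε nonCyclic wgt Y).ncard : ℝ) / Y) atTop (𝓝 P)) :
    Tendsto (fun X : ℝ => ((classesW ε nonCyclic wgt ((max X 0) ^ (1 / 3 : ℝ))).ncard : ℝ) /
      X ^ (1 / 3 : ℝ)) atTop (𝓝 P) := by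
  refine (h.comp (tendsto_rpow_atTop (y := (1 / 3 : ℝ)) (by norm_num))).congr' ?_
  filter_upwards [eventually_ge_atTop (0 : ℝ)] with X hX
  rw [Function.comp_apply, max_eq_left hX]

end FA.SexticCount

end
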